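/-
DS programme (S48), assembly piece A1 (helper55), part 1: comparison of a lower and an upper
Dirichlet density.

If `X` has lower density `≥ a`, `X'` has upper density `≤ b`, and every prime of `X` lies in `X'` or
in a finite set `T`, then `a ≤ b`.
-/
import Mathlib
import Fermat.Agent.DS.Iface
import Fermat.Agent.DS.Irred.Density

set_option autoImplicit false

open Filter Topology

namespace Fermat.Agent.DS.Asm.BoundedDensity

open Fermat.Agent.DS.Iface Fermat.Agent.DS.Irred.Density Fermat.Agent.DS.Rankin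

/-- Enlarging the set of primes (outside a finite set `T`) enlarges the prime sum, up to `|T|`. -/
theorem primeSum_le_primeSum_add_card {s : ℝ} (hs : 1 < s) {X X' : Set ℕ} (T : Finset ℕ)
    (hsub : ∀ p : ℕ, p.Prime → p ∈ X → p ∈ X' ∨ p ∈ T) :
    primeSum X s ≤ primeSum X' s + T.card := by
  have h1 := primeSum_le_add_card hs X T
  have h2 : (∑' n : ℕ, Set.indicator {p : ℕ | p.Prime ∧ p ∉ T ∧ p ∈ X} (gw s) n) ≤
      primeSum X' s := by
    rw [primeSum_eq]
    refine (indicator_summable hs _).tsum_le_tsum (fun n => ?_) (indicator_summable hs _)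
    by_cases hn : n ∈ {p : ℕ | p.Prime ∧ p ∉ T ∧ p ∈ X}
    · have hn' : n ∈ {p : ℕ | p.Prime ∧ p ∈ X'} := by
        obtain ⟨hp, hT, hX⟩ := hn
        rcases hsub n hp hX with h | h
        · exact ⟨hp, h⟩
        · exact absurd h hT
      rw [Set.indicator_of_mem hn, Set.indicator_of_mem hn']
    · rw [Set.indicator_of_notMem hn]
      exact Set.indicator_nonneg (fun p _ => gw_nonneg s p) n
  linarith

/-- **Comparison of densities.** -/
theorem le_of_lowerDensityGE_of_upperDensityLE {X X' : Set ℕ} {a b : ℝ} (T : Finset ℕ)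
    (hl : LowerDensityGE X a) (hu : UpperDensityLE X' b)
    (hsub : ∀ p : ℕ, p.Prime → p ∈ X → p ∈ X' ∨ p ∈ T) : a ≤ b := by
  by_contra hab
  rw [not_le] at hab
  set δ : ℝ := (a - b) / 4 with hδ
  have hδpos : 0 < δ := by rw [hδ]; linarith
  have h1 := hl δ hδpos
  have h2 := hu δ hδpos
  have h3 : ∀ᶠ s in 𝓝[>] (1 : ℝ), ((T.card : ℝ) + 1) / δ ≤ Real.log (1 / (s - 1)) :=
    IfaceAdapter.tendsto_log_one_div_sub_one.eventually_ge_atTop _
  have h4 : ∀ᶠ s in 𝓝[>] (1 : ℝ), 1 < s := self_mem_nhdsWithin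
  obtain ⟨s, hs1, hs2, hs3, hs4⟩ := (h1.and (h2.and (h3.and h4))).exists
  have h5 := primeSum_le_primeSum_add_card hs4 T hsub
  set L : ℝ := Real.log (1 / (s - 1)) with hL
  have h6 : (T.card : ℝ) + 1 ≤ δ * L := by
    rw [div_le_iff₀ hδpos] at hs3
    linarith
  have h7 : (a - δ) * L ≤ (b + δ) * L + T.card := by linarith
  have h8 : (a - b - 2 * δ) * L ≤ T.card := by linarith
  have h9 : a - b - 2 * δ = 2 * δ := by rw [hδ]; ring
  rw [h9] at h8
  linarith

end Fermat.Agent.DS.Asm.BoundedDensity
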