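/-
DS programme (S48), assembly piece A1 (helper55), part 2: group-theoretic bookkeeping.

* `charpoly_inv`: the characteristic polynomial of `g⁻¹` is a function (`invPoly`) of that of `g`;
* `fewCharpolys_of_card_le`: if the elements of `G` whose characteristic polynomial is not in `P`
  lie in a set `S` with `|S| ≤ η |G|`, then `FewCharpolys G η M` (`|P| ≤ M`).
-/
import Mathlib
import Fermat.Agent.DS.GL2.Main

set_option autoImplicit false

namespace Fermat.Agent.DS.Asm.BoundedGroup

open Matrix Polynomial Fermat.Agent.DS.GL2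

variable {k : Type*} [Field k]

/-- The characteristic polynomial of the inverse, as a function of the characteristic polynomial. -/
noncomputable def invPoly (q : k[X]) : k[X] :=
  X ^ 2 + C (q.coeff 1 / q.coeff 0) * X + C (1 / q.coeff 0)

theorem charpoly_inv (g : GL (Fin 2) k) :
    ((g⁻¹ : GL (Fin 2) k) : Matrix (Fin 2) (Fin 2) k).charpoly =
      invPoly (g : Matrix (Fin 2) (Fin 2) k).charpoly := by
  set A : Matrix (Fin 2) (Fin 2) k := (g : Matrix (Fin 2) (Fin 2) k) with hA
  have hdet : A.det ≠ 0 := by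
    have := Matrix.GeneralLinearGroup.det_ne_zero g
    simpa using this
  have h1 : A.charpoly.coeff 1 = -A.trace := by rw [Main.trace_eq_neg_coeff, neg_neg]
  have h0 : A.charpoly.coeff 0 = A.det := (Main.det_eq_coeff A).symm
  have htr : ((g⁻¹ : GL (Fin 2) k) : Matrix (Fin 2) (Fin 2) k).trace = A.trace / A.det := by
    have e : ((g⁻¹ : GL (Fin 2) k) : Matrix (Fin 2) (Fin 2) k) =
        A.det⁻¹ • (A.trace • (1 : Matrix (Fin 2) (Fin 2) k) - A) := Transvections.coe_inv_eq g
    rw [e, Matrix.trace_smul, Matrix.trace_sub, Matrix.trace_smul,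
      Matrix.trace_one, Fintype.card_fin, smul_eq_mul, smul_eq_mul]
    field_simp
    push_cast
    ring
  have hdetinv : ((g⁻¹ : GL (Fin 2) k) : Matrix (Fin 2) (Fin 2) k).det = 1 / A.det := by
    have h : ((g⁻¹ : GL (Fin 2) k) : Matrix (Fin 2) (Fin 2) k).det * A.det = 1 := by
      rw [← Matrix.det_mul, hA, ← Units.val_mul, inv_mul_cancel, Units.val_one, Matrix.det_one]
    rw [eq_div_iff hdet, h]
  rw [Matrix.charpoly_fin_two, htr, hdetinv, invPoly, h1, h0, neg_div, C_neg, neg_mul,
    sub_eq_add_neg]

/-- Repackaging: a small exceptional set gives `FewCharpolys`. -/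
theorem fewCharpolys_of_card_le (G : Subgroup (GL (Fin 2) k)) [Finite G] (P : Finset k[X])
    {η : ℝ} {M : ℕ} (hP : P.card ≤ M) (S : Set G)
    (hS : ∀ g : G, g ∉ S → ((g : GL (Fin 2) k) : Matrix (Fin 2) (Fin 2) k).charpoly ∈ P)
    (hcard : (Nat.card S : ℝ) ≤ η * Nat.card G) : Main.FewCharpolys G η M := by
  classical
  have : Fintype G := Fintype.ofFinite G
  set H₀ : Finset G := Finset.univ.filter (fun g => g ∉ S) with hH₀
  set S₀ : Finset G := Finset.univ.filter (fun g => g ∈ S) with hS₀
  have hsum : S₀.card + H₀.card = Fintype.card G := by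
    have := Finset.card_filter_add_card_filter_not (s := (Finset.univ : Finset G)) (fun g => g ∈ S)
    rw [Finset.card_univ] at this
    exact this
  have hS₀card : S₀.card = Nat.card S := by
    rw [Nat.card_eq_fintype_card, Fintype.card_subtype]
  refine ⟨H₀.image Subtype.val, P, ?_, ?_, hP, ?_⟩
  · intro h hh
    obtain ⟨g, _, rfl⟩ := Finset.mem_image.mp hh
    exact g.2
  · rw [Finset.card_image_of_injective _ Subtype.val_injective]
    have h1 : (Nat.card G : ℝ) = (S₀.card : ℝ) + (H₀.card : ℝ) := by
      rw [Nat.card_eq_fintype_card, ← hsum]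
      push_cast
      ring
    rw [← hS₀card] at hcard
    linarith
  · intro h hh
    obtain ⟨g, hg, rfl⟩ := Finset.mem_image.mp hh
    exact hS g (Finset.mem_filter.mp hg).2

end Fermat.Agent.DS.Asm.BoundedGroup
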