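/-
DS programme (S48), ASSEMBLY interface (helper54): the objects and the exact statements of the
four pieces of Deligne--Serre section 8, so that they can be proved in parallel.

`ResDatum N ε f ℓ`  = a semisimple mod-`ℓ` matrix representation with integral traces attached to the
                      eigen data, over a field `k` of characteristic `ℓ` with a residue map
                      `φ : ℤbar → k`.
`ExistsData`        = (A0, helper54) for every `D > 0` and finite `B` there is a prime `ℓ ∉ B` with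
                      `D ∣ ℓ - 1` carrying a datum.
`BoundedImage`      = (A1 = D--S Lemma 8.1 + Prop. 7.2) the images have bounded order.
`ComplexLifts`      = (A2 = lifting + pigeonhole) for large `ℓ ≡ 1 mod A!` the datum lifts to a complex
                      representation with the right Frobenius traces/determinants outside `N ℓ`,
                      and `|a_p| ≤ 2`.
`Independence`      = (A3 = B6) two complex representations with the same Frobenius data outside
                      finite sets have the same kernel and the same traces/determinants.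
The final theorem `Goal` is assembled from these in `DS/Asm/Main.lean`.
-/
import Mathlib
import Fermat.Agent.DS.Iface
import Fermat.Agent.DS.IfaceSym
import Fermat.Agent.DS.GL2.Transvections

set_option autoImplicit false

open CongruenceSubgroup Polynomial
open scoped MatrixGroups

namespace Fermat.Agent.DS.Asm.Datum

open Fermat.Agent.DS.Iface Fermat.Agent.DS.GL2.Transvections

local notation "Γℚ" => (AlgebraicClosure ℚ ≃ₐ[ℚ] AlgebraicClosure ℚ)
local notation "ℤbar" => integralClosure ℤ ℂ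

/-- A semisimple mod-`ℓ` matrix representation with integral traces attached to the eigen data. -/
structure ResDatum (N : ℕ) [NeZero N] (ε : DirichletCharacter ℂ N)
    (f : CuspForm (Gamma1 N) 1) (ℓ : ℕ) : Type 1 where
  k : Type
  [fld : Field k]
  [chr : CharP k ℓ]
  φ : ℤbar →+* k
  r : Γℚ →* GL (Fin 2) k
  finiteLevel : GaloisFactorsThroughFiniteLevel r
  semisimple : IsSemisimpleSubgroup r.range
  unram : ∀ p : ℕ, p.Prime → ¬ p ∣ N * ℓ →
    ∀ A : ValuationSubring (AlgebraicClosure ℚ), A.LiesOverPrime p →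
      ∀ σ ∈ A.inertiaSubgroupIn ℚ, r σ = 1
  frob : ∀ p : ℕ, p.Prime → ¬ p ∣ N * ℓ →
    ∀ A : ValuationSubring (AlgebraicClosure ℚ), A.LiesOverPrime p →
      ∀ σ : Γℚ, A.IsFrobeniusAt σ p →
        ∃ a e : ℤbar, (a : ℂ) = ModularFormClass.qCoeff f p ∧ (e : ℂ) = ε (p : ZMod N) ∧
          ((r σ : GL (Fin 2) k) : Matrix (Fin 2) (Fin 2) k).trace = φ a ∧
          ((r σ : GL (Fin 2) k) : Matrix (Fin 2) (Fin 2) k).det = φ e
  intTrace : ∀ σ : Γℚ, ∃ t : ℤ,
    ((r σ : GL (Fin 2) k) : Matrix (Fin 2) (Fin 2) k).trace = (t : k)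

attribute [instance] ResDatum.fld ResDatum.chr

variable (N : ℕ) [NeZero N] (ε : DirichletCharacter ℂ N) (f : CuspForm (Gamma1 N) 1)

/-- (A0) enough data: for every `D > 0` and every finite set `B` there is a prime `ℓ ∉ B`,
`ℓ ≡ 1 mod D`, carrying a datum. -/
def ExistsData : Prop :=
  ∀ D : ℕ, 0 < D → ∀ B : Finset ℕ, ∃ ℓ : ℕ, ℓ.Prime ∧ ℓ ∉ B ∧ D ∣ ℓ - 1 ∧
    Nonempty (ResDatum N ε f ℓ)

/-- (A1) the images of all data have order at most `A`. -/
def BoundedImage (A : ℕ) : Prop :=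
  ∀ (ℓ : ℕ) (_ : ℓ.Prime) (R : ResDatum N ε f ℓ), Nat.card R.r.range ≤ A

/-- (A2) complex lifts for all large `ℓ ≡ 1 mod D`. -/
def ComplexLifts (D : ℕ) : Prop :=
  (∀ p : ℕ, p.Prime → ¬ p ∣ N → ‖ModularFormClass.qCoeff f p‖ ≤ 2) ∧
  ∃ ℓ₀ : ℕ, ∀ (ℓ : ℕ) (_ : ℓ.Prime), ℓ₀ ≤ ℓ → D ∣ ℓ - 1 → ∀ R : ResDatum N ε f ℓ,
    ∃ ρ : Γℚ →* GL (Fin 2) ℂ, GaloisFactorsThroughFiniteLevel ρ ∧
      (∀ σ : Γℚ, ρ σ = 1 ↔ R.r σ = 1) ∧
      ∀ p : ℕ, p.Prime → ¬ p ∣ N * ℓ →
        ∀ A : ValuationSubring (AlgebraicClosure ℚ), A.LiesOverPrime p →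
          ∀ σ : Γℚ, A.IsFrobeniusAt σ p →
            ((ρ σ : GL (Fin 2) ℂ) : Matrix (Fin 2) (Fin 2) ℂ).trace =
                ModularFormClass.qCoeff f p ∧
            ((ρ σ : GL (Fin 2) ℂ) : Matrix (Fin 2) (Fin 2) ℂ).det = ε (p : ZMod N)

/-- (A3) independence of `ℓ`: two finite-level complex representations whose Frobenius
traces and determinants agree outside a finite set `T` of primes have the same traces and
determinants everywhere, and the same kernel. -/
def Independence : Prop :=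
  ∀ (ρ ρ' : Γℚ →* GL (Fin 2) ℂ), GaloisFactorsThroughFiniteLevel ρ →
    GaloisFactorsThroughFiniteLevel ρ' → ∀ T : Finset ℕ,
    (∀ p : ℕ, p.Prime → p ∉ T →
      ∀ A : ValuationSubring (AlgebraicClosure ℚ), A.LiesOverPrime p →
        ∀ σ : Γℚ, A.IsFrobeniusAt σ p →
          ((ρ σ : GL (Fin 2) ℂ) : Matrix (Fin 2) (Fin 2) ℂ).trace =
              ((ρ' σ : GL (Fin 2) ℂ) : Matrix (Fin 2) (Fin 2) ℂ).trace ∧
          ((ρ σ : GL (Fin 2) ℂ) : Matrix (Fin 2) (Fin 2) ℂ).det =
              ((ρ' σ : GL (Fin 2) ℂ) : Matrix (Fin 2) (Fin 2) ℂ).det) →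
    ∀ σ : Γℚ,
      ((ρ σ : GL (Fin 2) ℂ) : Matrix (Fin 2) (Fin 2) ℂ).trace =
          ((ρ' σ : GL (Fin 2) ℂ) : Matrix (Fin 2) (Fin 2) ℂ).trace ∧
      ((ρ σ : GL (Fin 2) ℂ) : Matrix (Fin 2) (Fin 2) ℂ).det =
          ((ρ' σ : GL (Fin 2) ℂ) : Matrix (Fin 2) (Fin 2) ℂ).det ∧
      (ρ σ = 1 ↔ ρ' σ = 1)

end Fermat.Agent.DS.Asm.Datum
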