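/-
DS programme (S48), assembly piece A1 (helper55): **the images of the mod-`ℓ` data are bounded**
(Deligne--Serre Lemma 8.1 + Prop. 7.2).

`boundedImage`: from the finiteness of the values of `a_p` off a set of small upper density
(`Iface.FiniteValues`, proved in `DS/Conj/FiniteValues`) and the symmetric Chebotarev lower bound,
there is `A` with `|R.r.range| ≤ A` for every datum `R : ResDatum N ε f ℓ`, for every `ℓ`.
-/
import Mathlib
import Fermat.Agent.DS.Asm.Datum
import Fermat.Agent.DS.Asm.FiniteRange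
import Fermat.Agent.DS.Asm.BoundedDensity
import Fermat.Agent.DS.Asm.BoundedGroup
import Fermat.Agent.DS.Conj.FiniteValues
import Fermat.Agent.DS.GL2.Main

set_option autoImplicit false

open CongruenceSubgroup Polynomial
open scoped MatrixGroups

namespace Fermat.Agent.DS.Asm.Bounded

open Fermat.Agent.DS.Iface Fermat.Agent.DS.Asm.Datum Fermat.Agent.DS.GL2
  Fermat.Agent.DS.Asm.BoundedGroup Fermat.Agent.DS.Asm.BoundedDensity

local notation "Γℚ" => (AlgebraicClosure ℚ ≃ₐ[ℚ] AlgebraicClosure ℚ)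
local notation "ℤbar" => integralClosure ℤ ℂ

/-- the elements of `ℤbar` whose complex value lies in a finite set -/
noncomputable def lifts (Y : Finset ℂ) : Finset ℤbar :=
  Y.preimage (fun a : ℤbar => (a : ℂ)) (Subtype.coe_injective.injOn)

theorem mem_lifts (Y : Finset ℂ) (a : ℤbar) : a ∈ lifts Y ↔ (a : ℂ) ∈ Y := by
  rw [lifts, Finset.mem_preimage]

theorem card_lifts_le (Y : Finset ℂ) : (lifts Y).card ≤ Y.card :=
  Finset.card_le_card_of_injOn (fun a : ℤbar => (a : ℂ))
    (fun a ha => (mem_lifts Y a).mp (Finset.mem_coe.mp ha)) (Subtype.coe_injective.injOn)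

section polys

variable {k : Type} [Field k]

/-- the finitely many candidate characteristic polynomials `X² - φ(a) X + φ(e)` -/
noncomputable def polys (φ : ℤbar →+* k) (YZ EZ : Finset ℤbar) : Finset k[X] := by
  classical
  exact (YZ ×ˢ EZ).image (fun ae : ℤbar × ℤbar => X ^ 2 - C (φ ae.1) * X + C (φ ae.2))

theorem card_polys_le (φ : ℤbar →+* k) (YZ EZ : Finset ℤbar) :
    (polys φ YZ EZ).card ≤ YZ.card * EZ.card := by
  classical
  unfold polys
  exact le_trans Finset.card_image_le (le_of_eq (Finset.card_product YZ EZ))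

theorem mem_polys (φ : ℤbar →+* k) (YZ EZ : Finset ℤbar) {a e : ℤbar} (ha : a ∈ YZ)
    (he : e ∈ EZ) : X ^ 2 - C (φ a) * X + C (φ e) ∈ polys φ YZ EZ := by
  classical
  unfold polys
  exact Finset.mem_image.mpr ⟨(a, e), Finset.mem_product.mpr ⟨ha, he⟩, rfl⟩

/-- the candidates and the characteristic polynomials of their inverses -/
noncomputable def polys2 (φ : ℤbar →+* k) (YZ EZ : Finset ℤbar) : Finset k[X] := by
  classical
  exact polys φ YZ EZ ∪ (polys φ YZ EZ).image invPoly

theorem card_polys2_le (φ : ℤbar →+* k) (YZ EZ : Finset ℤbar) :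
    (polys2 φ YZ EZ).card ≤ 2 * (YZ.card * EZ.card) := by
  classical
  unfold polys2
  calc (polys φ YZ EZ ∪ (polys φ YZ EZ).image invPoly).card
      ≤ (polys φ YZ EZ).card + ((polys φ YZ EZ).image invPoly).card := Finset.card_union_le _ _
    _ ≤ (polys φ YZ EZ).card + (polys φ YZ EZ).card :=
        Nat.add_le_add_left Finset.card_image_le _
    _ ≤ 2 * (YZ.card * EZ.card) := by
        have := card_polys_le φ YZ EZ
        omega

end polys

variable (N : ℕ) [NeZero N] (ε : DirichletCharacter ℂ N) (f : CuspForm (Gamma1 N) 1)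

/-- the values of `ε` -/
noncomputable def epsValues : Finset ℂ := by
  classical
  exact (Finset.univ : Finset (ZMod N)).image (fun x => ε x)

theorem card_epsValues_le : (epsValues N ε).card ≤ N := by
  classical
  unfold epsValues
  calc ((Finset.univ : Finset (ZMod N)).image (fun x => ε x)).card
      ≤ (Finset.univ : Finset (ZMod N)).card := Finset.card_image_le
    _ = N := by rw [Finset.card_univ, ZMod.card]

theorem mem_epsValues (x : ZMod N) : ε x ∈ epsValues N ε := by
  classical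
  unfold epsValues
  exact Finset.mem_image.mpr ⟨x, Finset.mem_univ _, rfl⟩

/-- **(A1)** the images of all data have bounded order. -/
theorem boundedImage (hf : IsEigen N ε f) (hA : AutStable N)
    (hint : ∀ p : ℕ, p.Prime → ¬ p ∣ N → IsIntegral ℤ (ModularFormClass.qCoeff f p))
    (hCheb : IfaceSym.ChebotarevLowerSym) : ∃ A : ℕ, BoundedImage N ε f A := by
  classical
  obtain ⟨Y, hY⟩ := Conj.FiniteValues.finiteValues N ε f hf hA hint (1 / 120) (by norm_num)
  refine ⟨Main.bound (1 / 120) (2 * (Y.card * N)), ?_⟩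
  intro ℓ hℓ R
  have : Fact ℓ.Prime := ⟨hℓ⟩
  -- the image is finite
  have hfinset : (Set.range R.r).Finite := FiniteRange.finite_range R.r R.finiteLevel
  have hfin : Finite R.r.range := by
    have : (R.r.range : Set (GL (Fin 2) R.k)).Finite := by
      rw [MonoidHom.coe_range]; exact hfinset
    exact Set.finite_coe_iff.mpr this
  -- traces are integers
  have htr : ∀ w ∈ R.r.range, ∃ t : ℤ, (w : Matrix (Fin 2) (Fin 2) R.k).trace = (t : R.k) := by
    rintro _ ⟨σ, rfl⟩
    exact R.intTrace σ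
  -- the candidate characteristic polynomials
  set YZ : Finset ℤbar := lifts Y with hYZ
  set EZ : Finset ℤbar := lifts (epsValues N ε) with hEZ
  set P₀ : Finset R.k[X] := polys R.φ YZ EZ with hP₀
  set P : Finset R.k[X] := polys2 R.φ YZ EZ with hP
  have hPcard : P.card ≤ 2 * (Y.card * N) := by
    refine le_trans (card_polys2_le R.φ YZ EZ) ?_
    have h1 := card_lifts_le Y
    have h2 := le_trans (card_lifts_le (epsValues N ε)) (card_epsValues_le N ε)
    exact Nat.mul_le_mul_left 2 (Nat.mul_le_mul h1 h2)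
  have hP₀P : ∀ q ∈ P₀, q ∈ P := by
    intro q hq
    rw [hP, polys2]
    exact Finset.mem_union_left _ hq
  have hinvP : ∀ q ∈ P₀, invPoly q ∈ P := by
    intro q hq
    rw [hP, polys2]
    exact Finset.mem_union_right _ (Finset.mem_image_of_mem _ hq)
  -- the exceptional set
  set S : Set R.r.range := {g | ((g : GL (Fin 2) R.k) : Matrix (Fin 2) (Fin 2) R.k).charpoly ∉ P₀ ∧
    (((g⁻¹ : R.r.range) : GL (Fin 2) R.k) : Matrix (Fin 2) (Fin 2) R.k).charpoly ∉ P₀} with hS
  have hSinv : ∀ g ∈ S, g⁻¹ ∈ S := by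
    intro g hg
    refine ⟨hg.2, ?_⟩
    rw [inv_inv]
    exact hg.1
  have hSP : ∀ g : R.r.range, g ∉ S →
      ((g : GL (Fin 2) R.k) : Matrix (Fin 2) (Fin 2) R.k).charpoly ∈ P := by
    intro g hg
    by_cases h1 : ((g : GL (Fin 2) R.k) : Matrix (Fin 2) (Fin 2) R.k).charpoly ∈ P₀
    · exact hP₀P _ h1
    · have h2 : (((g⁻¹ : R.r.range) : GL (Fin 2) R.k) : Matrix (Fin 2) (Fin 2) R.k).charpoly ∈ P₀ := by
        by_contra h2
        exact hg ⟨h1, h2⟩
      have h3 := charpoly_inv ((g⁻¹ : R.r.range) : GL (Fin 2) R.k)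
      rw [← Subgroup.coe_inv, inv_inv] at h3
      rw [h3]
      exact hinvP _ h2
  -- Chebotarev
  set ρ : Γℚ →* R.r.range := R.r.rangeRestrict with hρ
  have hρfl : GaloisFactorsThroughFiniteLevel ρ := by
    obtain ⟨L, hL, hfix⟩ := R.finiteLevel
    exact ⟨L, hL, fun σ hσ => Subtype.ext (hfix σ hσ)⟩
  have hρsurj : Function.Surjective ρ := R.r.rangeRestrict_surjective
  have hlow := hCheb R.r.range ρ hρfl hρsurj S hSinv
  -- comparison of densities
  have hNℓ : N * ℓ ≠ 0 := Nat.mul_ne_zero (NeZero.ne N) hℓ.ne_zero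
  have hsub : ∀ p : ℕ, p.Prime →
      p ∈ {p : ℕ | ∃ (A : ValuationSubring (AlgebraicClosure ℚ)) (σ : Γℚ),
        A.LiesOverPrime p ∧ A.IsFrobeniusAt σ p ∧ ρ σ ∈ S} →
      p ∈ {p : ℕ | ¬ p ∣ N ∧ ModularFormClass.qCoeff f p ∉ Y} ∨ p ∈ (N * ℓ).primeFactors := by
    intro p hp hpX
    by_cases hdiv : p ∣ N * ℓ
    · right
      exact Nat.mem_primeFactors.mpr ⟨hp, hdiv, hNℓ⟩
    · left
      obtain ⟨A, σ, hAp, hFrob, hσS⟩ := hpX
      refine ⟨fun h => hdiv (Dvd.dvd.mul_right h ℓ), fun hapY => ?_⟩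
      obtain ⟨a, e, ha, he, htra, hdete⟩ := R.frob p hp hdiv A hAp σ hFrob
      have haYZ : a ∈ YZ := by rw [hYZ, mem_lifts, ha]; exact hapY
      have heEZ : e ∈ EZ := by rw [hEZ, mem_lifts, he]; exact mem_epsValues N ε _
      have hchar : ((R.r σ : GL (Fin 2) R.k) : Matrix (Fin 2) (Fin 2) R.k).charpoly ∈ P₀ := by
        rw [Matrix.charpoly_fin_two, htra, hdete]
        exact mem_polys R.φ YZ EZ haYZ heEZ
      exact hσS.1 hchar
  have hdens := le_of_lowerDensityGE_of_upperDensityLE (N * ℓ).primeFactors hlow hY hsub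
  have hGpos : (0 : ℝ) < Nat.card R.r.range := by exact_mod_cast Nat.card_pos
  have hcard : (Nat.card S : ℝ) ≤ 1 / 120 * Nat.card R.r.range := by
    rw [div_le_iff₀ hGpos] at hdens
    exact hdens
  have hfew : Main.FewCharpolys R.r.range (1 / 120) (2 * (Y.card * N)) :=
    fewCharpolys_of_card_le R.r.range P hPcard S hSP hcard
  exact Main.card_le_bound (by norm_num) _ ℓ R.k R.r.range htr R.semisimple hfew

end Fermat.Agent.DS.Asm.Bounded
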