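/-
DS programme (S48), ASSEMBLY, glue (helper54).

* `matRep ρ` : the matrix form `Γℚ →* GL (Fin 2) k` of a `ResidualGaloisRep k` (with respect to a
  chosen basis), with `charpoly_matRep`, `matRep_eq_one`.
* `trace_det_of_charpoly_eq` : trace and determinant of a `2 × 2` matrix read off its characteristic
  polynomial `X² - u X + v`.
* `exists_int_trace_pow` : if the trace and determinant of a `2 × 2` matrix are (images of) integers
  then so are the traces of all its powers.
-/
import Mathlib
import Fermat.Prelude.Def_GaloisRep_Residual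

set_option autoImplicit false

open Polynomial

namespace Fermat.Agent.DS.Asm.MatRep

local notation "Γℚ" => (AlgebraicClosure ℚ ≃ₐ[ℚ] AlgebraicClosure ℚ)

section Rep

variable {k : Type} [Field k]

/-- A basis of the space of a residual representation. -/
noncomputable def basisOf (ρ : ResidualGaloisRep k) : Module.Basis (Fin 2) k ρ.V :=
  Module.finBasisOfFinrankEq k ρ.V ρ.finrank_eq

/-- The matrix-valued homomorphism attached to a residual representation. -/
noncomputable def matHom (ρ : ResidualGaloisRep k) : Γℚ →* Matrix (Fin 2) (Fin 2) k :=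
  (MonoidHomClass.toMonoidHom (LinearMap.toMatrixAlgEquiv (basisOf ρ))).comp ρ.ρ

/-- The matrix form of a residual representation. -/
noncomputable def matRep (ρ : ResidualGaloisRep k) : Γℚ →* GL (Fin 2) k :=
  (matHom ρ).toHomUnits

theorem matRep_coe (ρ : ResidualGaloisRep k) (σ : Γℚ) :
    ((matRep ρ σ : GL (Fin 2) k) : Matrix (Fin 2) (Fin 2) k) =
      LinearMap.toMatrix (basisOf ρ) (basisOf ρ) (ρ.ρ σ) := rfl

theorem charpoly_matRep (ρ : ResidualGaloisRep k) (σ : Γℚ) :
    ((matRep ρ σ : GL (Fin 2) k) : Matrix (Fin 2) (Fin 2) k).charpoly =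
      LinearMap.charpoly (ρ.ρ σ) := by
  rw [matRep_coe, LinearMap.charpoly_toMatrix]

theorem matRep_eq_one (ρ : ResidualGaloisRep k) (σ : Γℚ) (h : ρ.ρ σ = 1) : matRep ρ σ = 1 := by
  apply Units.ext
  rw [matRep_coe, h]
  exact LinearMap.toMatrix_one _

theorem finiteLevel_matRep (ρ : ResidualGaloisRep k) :
    GaloisFactorsThroughFiniteLevel (matRep ρ) := by
  obtain ⟨L, hL, h⟩ := ρ.factorsThroughFiniteLevel
  exact ⟨L, hL, fun σ hσ => matRep_eq_one ρ σ (h σ hσ)⟩

end Rep

section TwoByTwo

variable {k : Type*} [Field k]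

/-- Trace and determinant from the characteristic polynomial `X² - u X + v`. -/
theorem trace_det_of_charpoly_eq (M : Matrix (Fin 2) (Fin 2) k) (u v : k)
    (h : M.charpoly = X ^ 2 - C u * X + C v) : M.trace = u ∧ M.det = v := by
  have hdet : M.det = v := by
    have := congrArg (Polynomial.eval 0) h
    rw [Matrix.charpoly_fin_two] at this
    simpa using this
  refine ⟨?_, hdet⟩
  have := congrArg (Polynomial.eval 1) h
  rw [Matrix.charpoly_fin_two, hdet] at this
  simp only [eval_add, eval_sub, eval_pow, eval_X, eval_mul, eval_C, one_pow, mul_one] at this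
  linear_combination -this

/-- Cayley–Hamilton for `2 × 2` matrices. -/
theorem sq_eq (M : Matrix (Fin 2) (Fin 2) k) :
    M * M = M.trace • M - M.det • (1 : Matrix (Fin 2) (Fin 2) k) := by
  ext i j
  fin_cases i <;> fin_cases j <;>
    simp [Matrix.mul_apply, Fin.sum_univ_two, Matrix.trace_fin_two, Matrix.det_fin_two] <;> ring

/-- If trace and determinant are integers, so are the traces of all powers. -/
theorem exists_int_trace_pow (M : Matrix (Fin 2) (Fin 2) k) (t d : ℤ)
    (ht : M.trace = (t : k)) (hd : M.det = (d : k)) (j : ℕ) :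
    ∃ s : ℤ, (M ^ j).trace = (s : k) := by
  have key : ∀ j : ℕ, (∃ s : ℤ, (M ^ j).trace = (s : k)) ∧
      ∃ s : ℤ, (M ^ (j + 1)).trace = (s : k) := by
    intro j
    induction j with
    | zero =>
      refine ⟨⟨2, ?_⟩, ⟨t, ?_⟩⟩
      · rw [pow_zero, Matrix.trace_one]
        simp
      · rw [zero_add, pow_one, ht]
    | succ j ih =>
      obtain ⟨⟨s0, hs0⟩, ⟨s1, hs1⟩⟩ := ih
      refine ⟨⟨s1, hs1⟩, ⟨t * s1 - d * s0, ?_⟩⟩
      have h1 : M ^ (j + 1 + 1) = M.trace • M ^ (j + 1) - M.det • M ^ j := by
        rw [pow_succ, pow_succ, mul_assoc, sq_eq, mul_sub, Matrix.mul_smul, Matrix.mul_smul,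
          mul_one, ← pow_succ]
      rw [h1, Matrix.trace_sub, Matrix.trace_smul, Matrix.trace_smul, hs0, hs1, ht, hd]
      push_cast
      simp [smul_eq_mul]
  exact (key j).1

end TwoByTwo

end Fermat.Agent.DS.Asm.MatRep
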