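/-
DS programme (S48), ASSEMBLY, arithmetic glue (helper54).

* `isIntegral_of_modLambdaReps` : C0 forces the `a_p` (`p ∤ N`) to be algebraic integers.
* `exists_numberField` : a number field `K' ⊆ ℂ` containing all `a_p` (`p ∤ N`), all values of
  `ε` and a primitive `D`-th root of unity.
* `charP_quotient` : the residue field of a maximal ideal of `ℤbar` containing `ℓ` has
  characteristic `ℓ`.
* `dvd_sub_one` : if a primitive `D`-th root of unity reduces to an element of the prime field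
  (`ℓ ∤ D`), then `D ∣ ℓ - 1`.
-/
import Mathlib
import Fermat.Agent.DS.Iface
import Fermat.Agent.DS.Conj.Orbit
import Fermat.Agent.DS.Split.Field
import Fermat.Agent.DS.Split.Residue
import Fermat.Agent.DS.Lift.Main
import Fermat.Agent.Lib.FrobeniusExists

set_option autoImplicit false
set_option linter.style.haveILetI false

open CongruenceSubgroup ModularFormClass Polynomial IntermediateField
open scoped MatrixGroups

namespace Fermat.Agent.DS.Asm.NumField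

open Fermat.Agent.DS.Iface Fermat.Agent.DS.Conj Fermat.Agent.DS.Split

local notation "Γℚ" => (AlgebraicClosure ℚ ≃ₐ[ℚ] AlgebraicClosure ℚ)
local notation "ℤbar" => integralClosure ℤ ℂ

/-- The residue field of a maximal ideal of `ℤbar` containing the prime `ℓ` has characteristic
`ℓ`. -/
theorem charP_quotient (Q : Ideal ℤbar) [Q.IsMaximal] (ℓ : ℕ) (hℓ : ℓ.Prime)
    (h : ((ℓ : ℕ) : ℤbar) ∈ Q) : CharP (ℤbar ⧸ Q) ℓ := by
  obtain ⟨c, hc⟩ := CharP.exists (ℤbar ⧸ Q)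
  have h0 : ((ℓ : ℕ) : ℤbar ⧸ Q) = 0 := by
    have : Ideal.Quotient.mk Q ((ℓ : ℕ) : ℤbar) = 0 := Ideal.Quotient.eq_zero_iff_mem.mpr h
    rwa [map_natCast] at this
  have h1 : c ∣ ℓ := (CharP.cast_eq_zero_iff (ℤbar ⧸ Q) c ℓ).mp h0
  rcases (Nat.dvd_prime hℓ).mp h1 with h2 | h2
  · exact absurd h2 (CharP.char_ne_one (ℤbar ⧸ Q) c)
  · rw [← h2]
    exact hc

variable {N : ℕ} [NeZero N] {ε : DirichletCharacter ℂ N} {f : CuspForm (Gamma1 N) 1}

/-- C0 forces the Hecke eigenvalues at good primes to be algebraic integers. -/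
theorem isIntegral_of_modLambdaReps (hC0 : ModLambdaReps N ε f) (p : ℕ) (hp : p.Prime)
    (hpN : ¬ p ∣ N) : IsIntegral ℤ (qCoeff f p) := by
  classical
  obtain ⟨B0, h0⟩ := hC0
  obtain ⟨ℓ, hℓ, hℓB, Q, hQmax, hℓQ, -⟩ :=
    Residue.exists_degree_one_residue (⊥ : IntermediateField ℚ ℂ) (B0 ∪ {p})
  have hℓB0 : ℓ ∉ B0 := fun h => hℓB (Finset.mem_union_left _ h)
  have hℓp : ℓ ≠ p := fun h => hℓB (Finset.mem_union_right _ (by simp [h]))
  letI : Field (ℤbar ⧸ Q) := Ideal.Quotient.field Q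
  haveI : CharP (ℤbar ⧸ Q) ℓ := charP_quotient Q ℓ hℓ hℓQ
  obtain ⟨ρ, hρ⟩ := h0 ℓ hℓ hℓB0 (ℤbar ⧸ Q) (Ideal.Quotient.mk Q)
  have hpNℓ : ¬ p ∣ N * ℓ := by
    intro h
    rcases (Nat.Prime.dvd_mul hp).mp h with h | h
    · exact hpN h
    · exact hℓp ((Nat.prime_dvd_prime_iff_eq hp hℓ).mp h).symm
  obtain ⟨A, σ, hA, hσ⟩ := Fermat.Agent.Lib.exists_isFrobeniusAt p hp
  obtain ⟨a, e, ha, -, -⟩ := (hρ p hp hpNℓ).2 A hA σ hσ
  rw [← ha]
  exact a.2

/-- A number field containing the Hecke eigenvalues at good primes, the values of the character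
and a primitive `D`-th root of unity. -/
theorem exists_numberField (hf : IsEigen N ε f) (hA : AutStable N)
    (hint : ∀ p : ℕ, p.Prime → ¬ p ∣ N → IsIntegral ℤ (qCoeff f p)) (D : ℕ) (hD : 0 < D) :
    ∃ K' : IntermediateField ℚ ℂ, FiniteDimensional ℚ K' ∧
      (∀ p : ℕ, p.Prime → ¬ p ∣ N → qCoeff f p ∈ K') ∧ (∀ u : ZMod N, ε u ∈ K') ∧
      ∃ ζ : ℂ, ζ ∈ K' ∧ IsPrimitiveRoot ζ D := by
  classical
  set A₀ : Set ℂ := {z | ∃ p : ℕ, p.Prime ∧ ¬ p ∣ N ∧ z = qCoeff f p} ∪ Set.range ε with hA₀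
  have hA₀int : ∀ a ∈ A₀, IsIntegral ℚ a := by
    rintro a (⟨p, hp, hpN, rfl⟩ | ⟨u, rfl⟩)
    · exact (hint p hp hpN).tower_top
    · rcases Orbit.conj_value_mem (ε := ε) (RingEquiv.refl ℂ) u with h | h
      · rw [RingEquiv.refl_apply] at h
        rw [h]
        exact isIntegral_zero
      · rw [RingEquiv.refl_apply] at h
        have hpos : 0 < Nat.totient N := Nat.totient_pos.mpr (Nat.pos_of_ne_zero (NeZero.ne N))
        refine IsIntegral.of_pow hpos ?_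
        rw [h]
        exact isIntegral_one
  obtain ⟨r, τ, hτ⟩ := Orbit.finite_orbit hf hA
  have hfin : Set.Finite (Set.range (fun σ : ℂ ≃+* ℂ => fun a : A₀ => σ (a : ℂ))) := by
    refine (Set.finite_range (fun i : Fin r => fun a : A₀ => τ i (a : ℂ))).subset ?_
    rintro _ ⟨σ, rfl⟩
    obtain ⟨i, hi1, hi2⟩ := hτ σ
    refine ⟨i, ?_⟩
    funext a
    obtain ⟨a, ha⟩ := a
    rcases ha with ⟨p, hp, hpN, rfl⟩ | ⟨u, rfl⟩
    · exact (hi1 p hp hpN).symm
    · exact (hi2 u).symm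
  haveI hK₁ : FiniteDimensional ℚ (IntermediateField.adjoin ℚ A₀) :=
    Field.finiteDimensional_adjoin A₀ hA₀int hfin
  set ζ : ℂ := Complex.exp (2 * Real.pi * Complex.I / D) with hζdef
  have hζ : IsPrimitiveRoot ζ D := Complex.isPrimitiveRoot_exp D hD.ne'
  have hζint : IsIntegral ℚ ζ := (hζ.isIntegral hD).tower_top
  haveI hK₂ : FiniteDimensional ℚ ℚ⟮ζ⟯ := IntermediateField.adjoin.finiteDimensional hζint
  refine ⟨IntermediateField.adjoin ℚ A₀ ⊔ ℚ⟮ζ⟯, IntermediateField.finiteDimensional_sup _ _,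
    fun p hp hpN => ?_, fun u => ?_, ζ, ?_, hζ⟩
  · exact (le_sup_left : IntermediateField.adjoin ℚ A₀ ≤ _)
      (IntermediateField.subset_adjoin ℚ A₀ (Or.inl ⟨p, hp, hpN, rfl⟩))
  · exact (le_sup_left : IntermediateField.adjoin ℚ A₀ ≤ _)
      (IntermediateField.subset_adjoin ℚ A₀ (Or.inr ⟨u, rfl⟩))
  · exact (le_sup_right : ℚ⟮ζ⟯ ≤ _) (IntermediateField.mem_adjoin_simple_self ℚ ζ)

/-- If a primitive `D`-th root of unity of `ℤbar` reduces to an element of the prime field of a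
field of characteristic `ℓ ∤ D`, then `D ∣ ℓ - 1`. -/
theorem dvd_sub_one (ℓ : ℕ) (hℓ : ℓ.Prime) (k : Type*) [Field k] [CharP k ℓ] (φ : ℤbar →+* k)
    (D : ℕ) (hD : ¬ ℓ ∣ D) (ζ : ℤbar) (hζ : IsPrimitiveRoot ζ D) (j : ℤ)
    (hj : φ ζ = (j : k)) : D ∣ ℓ - 1 := by
  haveI : Fact ℓ.Prime := ⟨hℓ⟩
  have hD0 : D ≠ 0 := by
    rintro rfl
    exact hD (dvd_zero ℓ)
  have hDk : (D : k) ≠ 0 := by
    intro h
    exact hD ((CharP.cast_eq_zero_iff k ℓ D).mp h)
  have hprim : IsPrimitiveRoot (φ ζ) D := Fermat.Agent.DS.Lift.Main.isPrimitiveRoot_map φ D hDk ζ hζ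
  rw [hj] at hprim
  let i : ZMod ℓ →+* k := ZMod.castHom (dvd_refl ℓ) k
  have hi : i (j : ZMod ℓ) = (j : k) := map_intCast i j
  have hprim' : IsPrimitiveRoot (j : ZMod ℓ) D :=
    IsPrimitiveRoot.of_map_of_injective (f := i) (by rw [hi]; exact hprim) i.injective
  have hne : (j : ZMod ℓ) ≠ 0 := hprim'.ne_zero hD0
  exact hprim'.dvd_of_pow_eq_one _ (ZMod.pow_card_sub_one_eq_one hne)

end Fermat.Agent.DS.Asm.NumField
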