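/-
DS programme (S48), ASSEMBLY, piece (A0) (helper54): existence of data.

`existsData` : from C0 (mod-`λ` representations) and C1 (`Aut ℂ`-stability) every eigen datum
`(N, ε, f)` carries, for every `D > 0` and every finite set `B`, a prime `ℓ ∉ B`, `ℓ ≡ 1 mod D`
and a semisimple mod-`ℓ` matrix representation with the right Frobenius traces/determinants and
with all traces in the prime field (`ResDatum`).

Route: number field `K' = ℚ(a_p, ε, ζ_D)` (finite by CONJ/ORB + B8/Field), prime `ℓ` and maximal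
ideal `Q` of `ℤbar` of degree one on `K'` (B8/Residue), C0 over `k = ℤbar ⧸ Q`, matrix form,
semisimplification (helper55), and Chebotarev in generator form (helper23) for the integrality of
all traces.
-/
import Mathlib
import Fermat.Agent.DS.Asm.Datum
import Fermat.Agent.DS.Asm.MatRep
import Fermat.Agent.DS.Asm.NumField
import Fermat.Agent.DS.GL2.SS
import Fermat.Agent.ES.GAL.ChebQbar23

set_option autoImplicit false
set_option linter.style.haveILetI false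

open CongruenceSubgroup ModularFormClass Polynomial
open scoped MatrixGroups

namespace Fermat.Agent.DS.Asm.Exists

open Fermat.Agent.DS.Iface Fermat.Agent.DS.Asm.Datum Fermat.Agent.DS.Asm
open Fermat.Agent.DS.GL2.Transvections

local notation "Γℚ" => (AlgebraicClosure ℚ ≃ₐ[ℚ] AlgebraicClosure ℚ)
local notation "ℤbar" => integralClosure ℤ ℂ

variable {N : ℕ} [NeZero N] {ε : DirichletCharacter ℂ N} {f : CuspForm (Gamma1 N) 1}

/-- The datum attached to a C0-representation over a residue field of degree one on a field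
containing the eigenvalues and the character values. -/
theorem nonempty_resDatum (K' : IntermediateField ℚ ℂ)
    (hKa : ∀ p : ℕ, p.Prime → ¬ p ∣ N → qCoeff f p ∈ K') (hKe : ∀ u : ZMod N, ε u ∈ K')
    (ℓ : ℕ) (hℓ : ℓ.Prime) (k : Type) [Field k] [CharP k ℓ] (φ : ℤbar →+* k)
    (hφ : ∀ x : ℤbar, (x : ℂ) ∈ K' → ∃ j : ℤ, φ x = (j : k))
    (ρ : ResidualGaloisRep k)
    (hρ : ∀ p : ℕ, p.Prime → ¬ p ∣ N * ℓ →
        ρ.IsUnramifiedAt p ∧
        ∀ A : ValuationSubring (AlgebraicClosure ℚ), A.LiesOverPrime p →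
          ∀ σ : Γℚ, A.IsFrobeniusAt σ p →
            ∃ a e : ℤbar, (a : ℂ) = qCoeff f p ∧ (e : ℂ) = ε (p : ZMod N) ∧
              LinearMap.charpoly (ρ.ρ σ) = X ^ 2 - C (φ a) * X + C (φ e)) :
    Nonempty (ResDatum N ε f ℓ) := by
  classical
  obtain ⟨r, hchar, hker, hss⟩ := Fermat.Agent.DS.GL2.SS.exists_semisimplification (MatRep.matRep ρ)
  have hfl : GaloisFactorsThroughFiniteLevel r := by
    obtain ⟨L, hL, h⟩ := MatRep.finiteLevel_matRep ρ
    exact ⟨L, hL, fun σ hσ => hker σ (h σ hσ)⟩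
  have hunram : ∀ p : ℕ, p.Prime → ¬ p ∣ N * ℓ →
      ∀ A : ValuationSubring (AlgebraicClosure ℚ), A.LiesOverPrime p →
        ∀ σ ∈ A.inertiaSubgroupIn ℚ, r σ = 1 := fun p hp hpNℓ A hA σ hσ =>
    hker σ (MatRep.matRep_eq_one ρ σ ((hρ p hp hpNℓ).1 A hA σ hσ))
  have hfrob : ∀ p : ℕ, p.Prime → ¬ p ∣ N * ℓ →
      ∀ A : ValuationSubring (AlgebraicClosure ℚ), A.LiesOverPrime p →
        ∀ σ : Γℚ, A.IsFrobeniusAt σ p →
          ∃ a e : ℤbar, (a : ℂ) = qCoeff f p ∧ (e : ℂ) = ε (p : ZMod N) ∧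
            ((r σ : GL (Fin 2) k) : Matrix (Fin 2) (Fin 2) k).trace = φ a ∧
            ((r σ : GL (Fin 2) k) : Matrix (Fin 2) (Fin 2) k).det = φ e := by
    intro p hp hpNℓ A hA σ hσ
    obtain ⟨a, e, ha, he, hc⟩ := (hρ p hp hpNℓ).2 A hA σ hσ
    refine ⟨a, e, ha, he, ?_⟩
    exact MatRep.trace_det_of_charpoly_eq _ (φ a) (φ e)
      (by rw [hchar, MatRep.charpoly_matRep, hc])
  have hintTrace : ∀ σ : Γℚ, ∃ t : ℤ,
      ((r σ : GL (Fin 2) k) : Matrix (Fin 2) (Fin 2) k).trace = (t : k) := by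
    intro σ
    obtain ⟨L, hL, hLker⟩ := hfl
    haveI := hL
    obtain ⟨p, A, φp, j, hp, hpT, hAp, hφp, hj⟩ :=
      Fermat.Agent.ES.GAL.ChebQbar23.exists_frobenius_pow_eq_on L σ (N * ℓ).primeFactors
    have hpNℓ : ¬ p ∣ N * ℓ := fun h =>
      hpT (Nat.mem_primeFactors.mpr ⟨hp, h, mul_ne_zero (NeZero.ne N) hℓ.ne_zero⟩)
    have hpN : ¬ p ∣ N := fun h => hpNℓ (Dvd.dvd.mul_right h ℓ)
    have h1 : r ((φp ^ j)⁻¹ * σ) = 1 := by
      refine hLker _ fun x hx => ?_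
      rw [AlgEquiv.mul_apply, ← hj x hx, AlgEquiv.aut_inv]
      exact (φp ^ j).symm_apply_apply x
    have hσ : r σ = r φp ^ j := by
      rw [map_mul, map_inv, inv_mul_eq_one, map_pow] at h1
      exact h1.symm
    obtain ⟨a, e, ha, he, htr, hdet⟩ := hfrob p hp hpNℓ A hAp φp hφp
    obtain ⟨t, ht⟩ := hφ a (by rw [ha]; exact hKa p hp hpN)
    obtain ⟨d, hd⟩ := hφ e (by rw [he]; exact hKe _)
    obtain ⟨s, hs⟩ := MatRep.exists_int_trace_pow
      ((r φp : GL (Fin 2) k) : Matrix (Fin 2) (Fin 2) k) t d (htr.trans ht) (hdet.trans hd) j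
    refine ⟨s, ?_⟩
    rw [hσ, Units.val_pow_eq_pow_val]
    exact hs
  exact ⟨{ k := k, φ := φ, r := r, finiteLevel := hfl, semisimple := hss, unram := hunram,
           frob := hfrob, intTrace := hintTrace }⟩

/-- **(A0)** existence of data. -/
theorem existsData (hf : IsEigen N ε f) (hC0 : ModLambdaReps N ε f) (hA : AutStable N) :
    ExistsData N ε f := by
  classical
  intro D hD B
  have hint := NumField.isIntegral_of_modLambdaReps hC0
  obtain ⟨K', hK'fin, hKa, hKe, ζ, hζK, hζ⟩ := NumField.exists_numberField hf hA hint D hD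
  obtain ⟨B0, h0⟩ := hC0
  haveI := hK'fin
  obtain ⟨ℓ, hℓ, hℓB, Q, hQmax, hℓQ, hres⟩ :=
    Fermat.Agent.DS.Split.Residue.exists_degree_one_residue K' (B ∪ B0 ∪ D.primeFactors)
  have hℓB' : ℓ ∉ B := fun h => hℓB (Finset.mem_union_left _ (Finset.mem_union_left _ h))
  have hℓB0 : ℓ ∉ B0 := fun h => hℓB (Finset.mem_union_left _ (Finset.mem_union_right _ h))
  have hℓD : ¬ ℓ ∣ D := fun h =>
    hℓB (Finset.mem_union_right _ (Nat.mem_primeFactors.mpr ⟨hℓ, h, hD.ne'⟩))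
  haveI := hQmax
  letI : Field (ℤbar ⧸ Q) := Ideal.Quotient.field Q
  haveI : CharP (ℤbar ⧸ Q) ℓ := NumField.charP_quotient Q ℓ hℓ hℓQ
  have hφ : ∀ x : ℤbar, (x : ℂ) ∈ K' →
      ∃ j : ℤ, Ideal.Quotient.mk Q x = ((j : ℤ) : ℤbar ⧸ Q) := by
    intro x hx
    obtain ⟨j, hj⟩ := hres x hx
    refine ⟨j, ?_⟩
    have := Ideal.Quotient.eq_zero_iff_mem.mpr hj
    rw [map_sub, map_intCast, sub_eq_zero] at this
    exact this
  refine ⟨ℓ, hℓ, hℓB', ?_, ?_⟩
  · set ζbar : ℤbar := ⟨ζ, hζ.isIntegral hD⟩ with hζbardef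
    have hζbar : IsPrimitiveRoot ζbar D :=
      IsPrimitiveRoot.of_map_of_injective (f := (integralClosure ℤ ℂ).val) hζ
        Subtype.coe_injective
    obtain ⟨j, hj⟩ := hφ ζbar hζK
    exact NumField.dvd_sub_one ℓ hℓ (ℤbar ⧸ Q) (Ideal.Quotient.mk Q) D hℓD ζbar hζbar j hj
  · obtain ⟨ρ, hρ⟩ := h0 ℓ hℓ hℓB0 (ℤbar ⧸ Q) (Ideal.Quotient.mk Q)
    exact nonempty_resDatum K' hKa hKe ℓ hℓ (ℤbar ⧸ Q) (Ideal.Quotient.mk Q) hφ ρ hρ

end Fermat.Agent.DS.Asm.Exists
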