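/-
DS programme (S48), assembly helpers (helper54): a homomorphism from `G_ℚ` that factors through a
finite level has finite range.
-/
import Mathlib
import Fermat.Prelude.Def_GaloisRep_Residual

set_option autoImplicit false

namespace Fermat.Agent.DS.Asm.FiniteRange

local notation "Γℚ" => (AlgebraicClosure ℚ ≃ₐ[ℚ] AlgebraicClosure ℚ)

/-- A homomorphism factoring through a finite level has finite range. -/
theorem finite_range {M : Type} [Group M] (π : Γℚ →* M)
    (h : GaloisFactorsThroughFiniteLevel π) : (Set.range π).Finite := by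
  classical
  obtain ⟨L, hL, hfix⟩ := h
  have : FiniteDimensional ℚ L := hL
  have : Finite (L →ₐ[ℚ] AlgebraicClosure ℚ) := inferInstance
  -- restriction to `L`
  let res : Γℚ → (L →ₐ[ℚ] AlgebraicClosure ℚ) := fun σ => (σ : AlgebraicClosure ℚ →ₐ[ℚ] AlgebraicClosure ℚ).comp L.val
  -- `π` only depends on the restriction
  have hdep : ∀ σ τ : Γℚ, res σ = res τ → π σ = π τ := by
    intro σ τ hστ
    have h1 : π (τ⁻¹ * σ) = 1 := by
      apply hfix
      intro x hx
      have := DFunLike.congr_fun hστ ⟨x, hx⟩
      change σ x = τ x at this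
      rw [AlgEquiv.mul_apply, this]
      exact τ.symm_apply_apply x
    rw [map_mul, map_inv, inv_mul_eq_one] at h1
    exact h1.symm
  -- hence the range is the image of a finite set
  have : Set.range π ⊆ (fun e : L →ₐ[ℚ] AlgebraicClosure ℚ =>
      if he : ∃ σ, res σ = e then π he.choose else 1) '' Set.univ := by
    rintro _ ⟨σ, rfl⟩
    refine ⟨res σ, Set.mem_univ _, ?_⟩
    have he : ∃ τ, res τ = res σ := ⟨σ, rfl⟩
    simp only [dif_pos he]
    exact hdep _ _ he.choose_spec
  exact (Set.finite_univ.image _).subset this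

end Fermat.Agent.DS.Asm.FiniteRange
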