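/-
DS programme (S48), assembly piece (A3) = independence of `ℓ` (helper7).

Two finite-level representations `ρ ρ' : G_ℚ → GL₂(ℂ)` whose traces and determinants agree at all
Frobenius elements outside a finite set of primes have the same traces and determinants at every
element of `G_ℚ`, and the same kernel.

Proof: for `σ ∈ G_ℚ` the generator form of Chebotarev (`ES/GAL/ChebQbar23`) gives a Frobenius
element `φ` at a prime outside `T` and `j` with `φ ^ j = σ` on the compositum of the two levels, so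
`ρ σ = (ρ φ) ^ j` and `ρ' σ = (ρ' φ) ^ j`; trace and determinant of the powers of a `2 × 2` matrix
are determined by its trace and determinant (Cayley--Hamilton recursion); kernels by
`DS/Lift/Kernel.eq_one_of_charpoly_eq`.
-/
import Mathlib
import Fermat.Agent.DS.Asm.Datum
import Fermat.Agent.DS.Asm.FiniteRange
import Fermat.Agent.DS.Lift.Kernel
import Fermat.Agent.ES.GAL.ChebQbar23

set_option autoImplicit false
set_option linter.unusedSectionVars false
set_option linter.style.longLine false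

open Matrix Polynomial
open Fermat.Agent.Lib.FrobeniusExists

namespace Fermat.Agent.DS.Asm.Indep7

/-! ### Powers of `2 × 2` matrices -/

section Mat

variable {R : Type*} [CommRing R]

/-- Cayley--Hamilton for `2 × 2` matrices. -/
theorem sq_eq (M : Matrix (Fin 2) (Fin 2) R) :
    M ^ 2 = M.trace • M - M.det • (1 : Matrix (Fin 2) (Fin 2) R) := by
  ext i j
  fin_cases i <;> fin_cases j <;>
    simp [pow_two, Matrix.mul_apply, Fin.sum_univ_two, Matrix.trace_fin_two, Matrix.det_fin_two] <;> ring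

theorem pow_add_two (M : Matrix (Fin 2) (Fin 2) R) (j : ℕ) :
    M ^ (j + 2) = M.trace • M ^ (j + 1) - M.det • M ^ j := by
  rw [pow_add, sq_eq, mul_sub, mul_smul_comm, mul_smul_comm, mul_one, pow_succ]

theorem trace_pow_add_two (M : Matrix (Fin 2) (Fin 2) R) (j : ℕ) :
    (M ^ (j + 2)).trace = M.trace * (M ^ (j + 1)).trace - M.det * (M ^ j).trace := by
  rw [pow_add_two, Matrix.trace_sub, Matrix.trace_smul, Matrix.trace_smul, smul_eq_mul,
    smul_eq_mul]

/-- Trace and determinant of the powers of a `2 × 2` matrix depend only on its trace and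
determinant. -/
theorem trace_det_pow_eq {M M' : Matrix (Fin 2) (Fin 2) R} (ht : M.trace = M'.trace)
    (hd : M.det = M'.det) (j : ℕ) :
    (M ^ j).trace = (M' ^ j).trace ∧ (M ^ j).det = (M' ^ j).det := by
  refine ⟨?_, by rw [Matrix.det_pow, Matrix.det_pow, hd]⟩
  have key : ∀ j : ℕ, (M ^ j).trace = (M' ^ j).trace ∧ (M ^ (j + 1)).trace = (M' ^ (j + 1)).trace := by
    intro j
    induction j with
    | zero => exact ⟨by simp, by simpa using ht⟩
    | succ j ih =>
      refine ⟨ih.2, ?_⟩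
      rw [trace_pow_add_two, trace_pow_add_two, ih.1, ih.2, ht, hd]
  exact (key j).1

end Mat

/-! ### Independence -/

local notation "Γℚ" => (AlgebraicClosure ℚ ≃ₐ[ℚ] AlgebraicClosure ℚ)

/-- Two finite-level representations with the same Frobenius traces and determinants outside
`T`: same traces and determinants everywhere. -/
theorem trace_det_eq (ρ ρ' : Γℚ →* GL (Fin 2) ℂ) (hρ : GaloisFactorsThroughFiniteLevel ρ)
    (hρ' : GaloisFactorsThroughFiniteLevel ρ') (T : Finset ℕ)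
    (h : ∀ p : ℕ, p.Prime → p ∉ T →
      ∀ A : ValuationSubring (AlgebraicClosure ℚ), A.LiesOverPrime p →
        ∀ σ : Γℚ, A.IsFrobeniusAt σ p →
          ((ρ σ : GL (Fin 2) ℂ) : Matrix (Fin 2) (Fin 2) ℂ).trace =
              ((ρ' σ : GL (Fin 2) ℂ) : Matrix (Fin 2) (Fin 2) ℂ).trace ∧
          ((ρ σ : GL (Fin 2) ℂ) : Matrix (Fin 2) (Fin 2) ℂ).det =
              ((ρ' σ : GL (Fin 2) ℂ) : Matrix (Fin 2) (Fin 2) ℂ).det) (σ : Γℚ) :
    ((ρ σ : GL (Fin 2) ℂ) : Matrix (Fin 2) (Fin 2) ℂ).trace =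
        ((ρ' σ : GL (Fin 2) ℂ) : Matrix (Fin 2) (Fin 2) ℂ).trace ∧
    ((ρ σ : GL (Fin 2) ℂ) : Matrix (Fin 2) (Fin 2) ℂ).det =
        ((ρ' σ : GL (Fin 2) ℂ) : Matrix (Fin 2) (Fin 2) ℂ).det := by
  obtain ⟨L, hLfin, hL⟩ := hρ
  obtain ⟨L', hL'fin, hL'⟩ := hρ'
  have : FiniteDimensional ℚ L := hLfin
  have : FiniteDimensional ℚ L' := hL'fin
  have : FiniteDimensional ℚ (L ⊔ L' : IntermediateField ℚ Qbar) :=
    IntermediateField.finiteDimensional_sup L L'
  obtain ⟨p, A, φ, j, hp, hpT, hAp, hφ, hfix⟩ :=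
    Fermat.Agent.ES.GAL.ChebQbar23.exists_frobenius_inv_mul_pow_fixes (L ⊔ L') σ T
  have h1 : ρ (σ⁻¹ * φ ^ j) = 1 :=
    hL _ (fun x hx => hfix x ((le_sup_left : L ≤ L ⊔ L') hx))
  have h2 : ρ' (σ⁻¹ * φ ^ j) = 1 :=
    hL' _ (fun x hx => hfix x ((le_sup_right : L' ≤ L ⊔ L') hx))
  have e1 : ρ σ = ρ φ ^ j := by
    rw [map_mul, map_inv, inv_mul_eq_one, map_pow] at h1
    exact h1
  have e2 : ρ' σ = ρ' φ ^ j := by
    rw [map_mul, map_inv, inv_mul_eq_one, map_pow] at h2
    exact h2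
  obtain ⟨ht, hd⟩ := h p hp hpT A hAp φ hφ
  have := trace_det_pow_eq ht hd j
  rw [e1, e2, Units.val_pow_eq_pow_val, Units.val_pow_eq_pow_val]
  exact this

/-- The orders of the elements of a finite-level representation are bounded. -/
theorem exists_pow_eq_one (ρ : Γℚ →* GL (Fin 2) ℂ) (hρ : GaloisFactorsThroughFiniteLevel ρ) :
    ∃ m : ℕ, m ≠ 0 ∧ ∀ σ : Γℚ, ρ σ ^ m = 1 := by
  have hfin : (Set.range ρ).Finite := Fermat.Agent.DS.Asm.FiniteRange.finite_range ρ hρ
  have : Finite ρ.range := hfin.to_subtype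
  refine ⟨Nat.card ρ.range, Nat.card_pos.ne', fun σ => ?_⟩
  have h := pow_card_eq_one' (G := ρ.range) (x := ⟨ρ σ, σ, rfl⟩)
  exact congrArg Subtype.val h

/-- **(A3) Independence of `ℓ`.** -/
theorem independence : Fermat.Agent.DS.Asm.Datum.Independence := by
  intro ρ ρ' hρ hρ' T h σ
  have hall := trace_det_eq ρ ρ' hρ hρ' T h
  have hchar : ∀ γ : Γℚ, ((ρ γ : GL (Fin 2) ℂ) : Matrix (Fin 2) (Fin 2) ℂ).charpoly =
      ((ρ' γ : GL (Fin 2) ℂ) : Matrix (Fin 2) (Fin 2) ℂ).charpoly := by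
    intro γ
    rw [Matrix.charpoly_fin_two, Matrix.charpoly_fin_two, (hall γ).1, (hall γ).2]
  obtain ⟨m, hm0, hm⟩ := exists_pow_eq_one ρ hρ
  obtain ⟨m', hm'0, hm'⟩ := exists_pow_eq_one ρ' hρ'
  refine ⟨(hall σ).1, (hall σ).2, ?_, ?_⟩
  · exact Fermat.Agent.DS.Lift.Kernel.eq_one_of_charpoly_eq ρ ρ' m' (by exact_mod_cast hm'0) hm'
      hchar σ
  · exact Fermat.Agent.DS.Lift.Kernel.eq_one_of_charpoly_eq ρ' ρ m (by exact_mod_cast hm0) hm
      (fun γ => (hchar γ).symm) σ

end Fermat.Agent.DS.Asm.Indep7
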