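/-
DS programme (S48), assembly piece (A2) (helper90): complex lifts for all large `ℓ ≡ 1 mod A!`,
and the Ramanujan bound `|a_p| ≤ 2`, from the uniform bound on the images.
-/
import Mathlib
import Fermat.Agent.DS.Asm.Datum
import Fermat.Agent.DS.Asm.FiniteRange
import Fermat.Agent.DS.Mid.Pigeonhole
import Fermat.Agent.DS.Mid.Construct

set_option autoImplicit false

open CongruenceSubgroup Polynomial
open scoped MatrixGroups

namespace Fermat.Agent.DS.Asm.Lifts90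

open Fermat.Agent.DS.Iface Fermat.Agent.DS.Asm.Datum Fermat.Agent.DS.Mid Fermat.Agent.DS.Lift

local notation "Γℚ" => (AlgebraicClosure ℚ ≃ₐ[ℚ] AlgebraicClosure ℚ)
local notation "ℤbar" => integralClosure ℤ ℂ

variable {N : ℕ} [NeZero N] {ε : DirichletCharacter ℂ N} {f : CuspForm (Gamma1 N) 1}

/-- The chosen lift of `a_p` to `ℤbar` (zero if `a_p` is not integral). -/
noncomputable def aLift (f : CuspForm (Gamma1 N) 1) (p : ℕ) : ℤbar :=
  open Classical in
  if h : IsIntegral ℤ (ModularFormClass.qCoeff f p) then ⟨ModularFormClass.qCoeff f p, h⟩ else 0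

/-- The chosen lift of `ε(p)` to `ℤbar` (zero if not integral). -/
noncomputable def eLift (ε : DirichletCharacter ℂ N) (p : ℕ) : ℤbar :=
  open Classical in
  if h : IsIntegral ℤ (ε (p : ZMod N)) then ⟨ε (p : ZMod N), h⟩ else 0

omit [NeZero N] in
theorem coe_aLift {p : ℕ} (h : ∃ a : ℤbar, (a : ℂ) = ModularFormClass.qCoeff f p) :
    ((aLift f p : ℤbar) : ℂ) = ModularFormClass.qCoeff f p := by
  obtain ⟨a, ha⟩ := h
  have hint : IsIntegral ℤ (ModularFormClass.qCoeff f p) := ha ▸ a.2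
  rw [aLift, dif_pos hint]

omit [NeZero N] in
theorem coe_eLift {p : ℕ} (h : ∃ e : ℤbar, (e : ℂ) = ε (p : ZMod N)) :
    ((eLift ε p : ℤbar) : ℂ) = ε (p : ZMod N) := by
  obtain ⟨e, he⟩ := h
  have hint : IsIntegral ℤ (ε (p : ZMod N)) := he ▸ e.2
  rw [eLift, dif_pos hint]

/-- A datum gives a mod-`φ` representation in the middle-layer vocabulary. -/
theorem isModRep_of_datum {ℓ : ℕ} (R : ResDatum N ε f ℓ) :
    IsModRep R.φ (aLift f) (eLift ε) (N * ℓ) R.r where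
  finiteLevel := R.finiteLevel
  unram := fun p hp hpS A hA σ hσ => R.unram p hp hpS A hA σ hσ
  frob := by
    rintro p hp hpS σ ⟨A, hA, hσ⟩
    obtain ⟨a, e, ha, he, htr, hdet⟩ := R.frob p hp hpS A hA σ hσ
    have h1 : a = aLift f p := Subtype.ext (by rw [ha, coe_aLift ⟨a, ha⟩])
    have h2 : e = eLift ε p := Subtype.ext (by rw [he, coe_eLift ⟨e, he⟩])
    rw [← h1, ← h2]
    exact ⟨htr, hdet⟩

/-- Integrality of `a_p` and `ε(p)` from the existence of data. -/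
theorem exists_lifts (hex : ExistsData N ε f) (p : ℕ) (hp : p.Prime) (hpN : ¬ p ∣ N) :
    (∃ a : ℤbar, (a : ℂ) = ModularFormClass.qCoeff f p) ∧
      (∃ e : ℤbar, (e : ℂ) = ε (p : ZMod N)) := by
  obtain ⟨ℓ, hℓ, hℓB, -, ⟨R⟩⟩ := hex 1 one_pos {p}
  have hℓp : ℓ ≠ p := by simpa using hℓB
  have hpNℓ : ¬ p ∣ N * ℓ := by
    intro hdvd
    rcases (Nat.Prime.dvd_mul hp).mp hdvd with h1 | h1
    · exact hpN h1
    · exact hℓp ((Nat.prime_dvd_prime_iff_eq hp hℓ).mp h1).symm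
  obtain ⟨σ, A, hA, hσ⟩ := exists_isFrobAt p hp
  obtain ⟨a, e, ha, he, -, -⟩ := R.frob p hp hpNℓ A hA σ hσ
  exact ⟨⟨a, ha⟩, ⟨e, he⟩⟩

/-- The range of a datum is finite. -/
theorem finite_range_datum {ℓ : ℕ} (R : ResDatum N ε f ℓ) : Finite R.r.range :=
  (FiniteRange.finite_range R.r R.finiteLevel).to_subtype

/-- Elements of the image have order dividing `A!` when the image has at most `A` elements. -/
theorem pow_factorial_eq_one {ℓ : ℕ} (R : ResDatum N ε f ℓ) (A : ℕ)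
    (hA : Nat.card R.r.range ≤ A) (σ : Γℚ) : (R.r σ) ^ A.factorial = 1 := by
  have : Finite R.r.range := finite_range_datum R
  have hpos : 0 < Nat.card R.r.range := Nat.card_pos
  obtain ⟨c, hc⟩ := Nat.dvd_factorial hpos hA
  have h1 : (R.r.rangeRestrict σ) ^ A.factorial = 1 := by
    rw [hc, pow_mul, pow_card_eq_one', one_pow]
  have := congrArg (fun g : R.r.range => (g : GL (Fin 2) R.k)) h1
  simpa using this

/-- **(A2) complex lifts.** -/
theorem complexLifts (_hf : IsEigen N ε f) (A : ℕ) (hb : BoundedImage N ε f A)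
    (hex : ExistsData N ε f) : ComplexLifts N ε f A.factorial := by
  classical
  set D : ℕ := A.factorial with hD
  have : NeZero D := ⟨Nat.factorial_ne_zero A⟩
  -- the set of primes carrying a datum is infinite
  set S : Set ℕ := {ℓ | ℓ.Prime ∧ Nonempty (ResDatum N ε f ℓ)} with hS
  have hSinf : S.Infinite := by
    intro hfin
    obtain ⟨ℓ, hℓ, hℓB, -, hR⟩ := hex 1 one_pos hfin.toFinset
    exact hℓB (hfin.mem_toFinset.mpr ⟨hℓ, hR⟩)
  -- pigeonhole
  have hY : ∀ p : ℕ, p.Prime → ¬ p ∣ N → (aLift f p, eLift ε p) ∈ YSet.Yset D := by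
    intro p hp hpN
    refine Pigeonhole.mem_Yset_of_modReps (aLift f) (eLift ε) N D S hSinf ?_ p hp hpN
    rintro ℓ ⟨hℓ, ⟨R⟩⟩
    exact ⟨hℓ, R.k, R.fld, R.chr, R.φ, R.r, isModRep_of_datum R,
      fun σ => pow_factorial_eq_one R A (hb ℓ hℓ R) σ⟩
  refine ⟨?_, ?_⟩
  · -- Ramanujan bound
    intro p hp hpN
    have hmem := hY p hp hpN
    rw [YSet.Yset, Finset.mem_image] at hmem
    obtain ⟨⟨i, j⟩, -, hij⟩ := hmem
    have h1 : aLift f p = YSet.zetaBar D ^ i + YSet.zetaBar D ^ j := (congrArg Prod.fst hij).symm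
    have h2 : ModularFormClass.qCoeff f p =
        ((YSet.zetaBar D : ℤbar) : ℂ) ^ i + ((YSet.zetaBar D : ℤbar) : ℂ) ^ j := by
      rw [← coe_aLift (exists_lifts hex p hp hpN).1, h1]
      push_cast
      rfl
    have hnorm : ‖((YSet.zetaBar D : ℤbar) : ℂ)‖ = 1 := by
      rw [YSet.coe_zetaBar]
      have := (Complex.isPrimitiveRoot_exp D (NeZero.ne D))
      exact this.norm'_eq_one (NeZero.ne D)
    rw [h2]
    calc ‖((YSet.zetaBar D : ℤbar) : ℂ) ^ i + ((YSet.zetaBar D : ℤbar) : ℂ) ^ j‖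
        ≤ ‖((YSet.zetaBar D : ℤbar) : ℂ) ^ i‖ + ‖((YSet.zetaBar D : ℤbar) : ℂ) ^ j‖ :=
          norm_add_le _ _
      _ = 2 := by rw [norm_pow, norm_pow, hnorm, one_pow, one_pow]; norm_num
  · -- the lifts
    obtain ⟨Ninj, hNinj0, hNinj⟩ := Pigeon.exists_nat_injOn.{0} (YSet.Yset D)
    refine ⟨Ninj + 1, fun ℓ hℓ hℓ0 hDℓ R => ?_⟩
    have hℓN : ¬ ℓ ∣ Ninj := fun h => by
      have := Nat.le_of_dvd (Nat.pos_of_ne_zero hNinj0) h
      omega
    have : Finite R.r.range := finite_range_datum R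
    have hcard : Nat.card R.r.range ∣ D :=
      Nat.dvd_factorial Nat.card_pos (hb ℓ hℓ R)
    obtain ⟨ρ, hρ, hker, -⟩ := Construct.exists_cxRep (aLift f) (eLift ε) N D ℓ hℓ hY R.φ
      (hNinj ℓ R.k R.φ hℓN) R.r (isModRep_of_datum R) hcard hDℓ
    refine ⟨ρ, hρ.finiteLevel, hker, fun p hp hpS Av hAv σ hσ => ?_⟩
    have hpN : ¬ p ∣ N := fun h => hpS (dvd_mul_of_dvd_left h ℓ)
    obtain ⟨htr, hdet⟩ := hρ.frob p hp hpS σ ⟨Av, hAv, hσ⟩
    rw [htr, hdet, coe_aLift (exists_lifts hex p hp hpN).1,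
      coe_eLift (exists_lifts hex p hp hpN).2]
    exact ⟨rfl, rfl⟩

end Fermat.Agent.DS.Asm.Lifts90
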