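/-
DS programme (S48), ASSEMBLY, TOP (helper54): Deligne--Serre section 8, final step.

`conclusion_of` : from existence of data (A0), complex lifts for all large `ℓ ≡ 1 mod D` (A2),
independence of `ℓ` (A3), the Rankin bound (B1) and irreducibility (B7, which consumes the
symmetric Chebotarev lower density) one gets the conclusion of S48 for the eigen datum
`(N, ε, f)`.

`genericHalf_of_bounded` : the generic half `C0 → C1 → Goal` of the contract, from the uniform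
bound (A1) on the orders of the images.
-/
import Mathlib
import Fermat.Agent.DS.Asm.Datum
import Fermat.Agent.DS.Asm.Exists
import Fermat.Agent.DS.Asm.Lifts90
import Fermat.Agent.DS.Asm.Indep7
import Fermat.Agent.DS.Irred.Main
import Fermat.Agent.DS.Rankin.IfaceAdapter

set_option autoImplicit false
set_option linter.style.haveILetI false

open CongruenceSubgroup ModularFormClass Polynomial
open scoped MatrixGroups

namespace Fermat.Agent.DS.Asm.Main

open Fermat.Agent.DS.Iface Fermat.Agent.DS.IfaceSym Fermat.Agent.DS.Asm.Datum Fermat.Agent.DS.Asm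

local notation "Γℚ" => (AlgebraicClosure ℚ ≃ₐ[ℚ] AlgebraicClosure ℚ)
local notation "ℤbar" => integralClosure ℤ ℂ

variable {N : ℕ} [NeZero N] {ε : DirichletCharacter ℂ N} {f : CuspForm (Gamma1 N) 1}

omit [NeZero N] in
/-- A prime does not divide `N * ℓ` as soon as it does not divide `N` and differs from the
prime `ℓ`. -/
theorem not_dvd_mul {p ℓ : ℕ} (hp : p.Prime) (hℓ : ℓ.Prime) (hpN : ¬ p ∣ N) (hne : p ≠ ℓ) :
    ¬ p ∣ N * ℓ := by
  intro h
  rcases (Nat.Prime.dvd_mul hp).mp h with h | h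
  · exact hpN h
  · exact hne ((Nat.prime_dvd_prime_iff_eq hp hℓ).mp h)

/-- **TOP**: the conclusion of S48 from the pieces (A0), (A2), (A3), (B1), (B7). -/
theorem conclusion_of (hf : IsEigen N ε f) (hCheb : ChebotarevLowerSym) {D : ℕ} (hD : 0 < D)
    (hex : ExistsData N ε f) (hlift : ComplexLifts N ε f D) (hind : Independence) :
    Conclusion N ε f := by
  classical
  obtain ⟨hbd, ℓ₀, hℓ₀⟩ := hlift
  -- two distinct large primes carrying data
  obtain ⟨ℓ, hℓ, hℓB, hDℓ, ⟨R⟩⟩ := hex D hD (Finset.range ℓ₀)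
  obtain ⟨ℓ', hℓ', hℓ'B, hDℓ', ⟨R'⟩⟩ := hex D hD (Finset.range ℓ₀ ∪ {ℓ})
  have hℓ₀ℓ : ℓ₀ ≤ ℓ := by
    by_contra h
    exact hℓB (Finset.mem_range.mpr (not_le.mp h))
  have hℓ₀ℓ' : ℓ₀ ≤ ℓ' := by
    by_contra h
    exact hℓ'B (Finset.mem_union_left _ (Finset.mem_range.mpr (not_le.mp h)))
  have hne : ℓ' ≠ ℓ := fun h => hℓ'B (Finset.mem_union_right _ (by simp [h]))
  obtain ⟨ρ, hρfl, hρker, hρfrob⟩ := hℓ₀ ℓ hℓ hℓ₀ℓ hDℓ R
  obtain ⟨ρ', hρ'fl, hρ'ker, hρ'frob⟩ := hℓ₀ ℓ' hℓ' hℓ₀ℓ' hDℓ' R'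
  -- independence of `ℓ`
  have hNℓℓ' : N * ℓ * ℓ' ≠ 0 := mul_ne_zero (mul_ne_zero (NeZero.ne N) hℓ.ne_zero) hℓ'.ne_zero
  have hI := hind ρ ρ' hρfl hρ'fl (N * ℓ * ℓ').primeFactors (by
    intro p hp hpT A hA σ hσ
    have hpd : ¬ p ∣ N * ℓ * ℓ' := fun h => hpT (Nat.mem_primeFactors.mpr ⟨hp, h, hNℓℓ'⟩)
    have h1 : ¬ p ∣ N * ℓ := fun h => hpd (Dvd.dvd.mul_right h ℓ')
    have h2 : ¬ p ∣ N * ℓ' := fun h => hpd (by
      rw [mul_assoc, mul_comm ℓ ℓ', ← mul_assoc]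
      exact Dvd.dvd.mul_right h ℓ)
    obtain ⟨ht, hd⟩ := hρfrob p hp h1 A hA σ hσ
    obtain ⟨ht', hd'⟩ := hρ'frob p hp h2 A hA σ hσ
    exact ⟨ht.trans ht'.symm, hd.trans hd'.symm⟩)
  -- Frobenius data at all `p ∤ N`
  have hfrobAll : ∀ p : ℕ, p.Prime → ¬ p ∣ N →
      ∀ A : ValuationSubring (AlgebraicClosure ℚ), A.LiesOverPrime p →
        ∀ σ : Γℚ, A.IsFrobeniusAt σ p →
          ((ρ σ : GL (Fin 2) ℂ) : Matrix (Fin 2) (Fin 2) ℂ).trace = qCoeff f p ∧
          ((ρ σ : GL (Fin 2) ℂ) : Matrix (Fin 2) (Fin 2) ℂ).det = ε (p : ZMod N) := by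
    intro p hp hpN A hA σ hσ
    by_cases hpℓ : p = ℓ
    · have h2 : ¬ p ∣ N * ℓ' := not_dvd_mul hp hℓ' hpN (fun h => hne (h.symm.trans hpℓ))
      obtain ⟨ht', hd'⟩ := hρ'frob p hp h2 A hA σ hσ
      exact ⟨(hI σ).1.trans ht', (hI σ).2.1.trans hd'⟩
    · exact hρfrob p hp (not_dvd_mul hp hℓ hpN hpℓ) A hA σ hσ
  -- unramified at all `p ∤ N`
  have hunramAll : ∀ p : ℕ, p.Prime → ¬ p ∣ N →
      ∀ A : ValuationSubring (AlgebraicClosure ℚ), A.LiesOverPrime p →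
        ∀ σ ∈ A.inertiaSubgroupIn ℚ, ρ σ = 1 := by
    intro p hp hpN A hA σ hσ
    by_cases hpℓ : p = ℓ
    · have h2 : ¬ p ∣ N * ℓ' := not_dvd_mul hp hℓ' hpN (fun h => hne (h.symm.trans hpℓ))
      have h3 : ρ' σ = 1 := (hρ'ker σ).mpr (R'.unram p hp h2 A hA σ hσ)
      exact (hI σ).2.2.mpr h3
    · exact (hρker σ).mpr (R.unram p hp (not_dvd_mul hp hℓ hpN hpℓ) A hA σ hσ)
  -- irreducibility
  have hS : ∀ p : ℕ, p.Prime → p ∉ N.primeFactors → ¬ p ∣ N := fun p hp hpS h =>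
    hpS (Nat.mem_primeFactors.mpr ⟨hp, h, NeZero.ne N⟩)
  have hbd4 : ∀ p : ℕ, p.Prime → p ∉ N.primeFactors → ‖qCoeff f p‖ ^ 2 ≤ 4 := by
    intro p hp hpS
    have h1 := hbd p hp (hS p hp hpS)
    have h0 := norm_nonneg (qCoeff f p)
    nlinarith
  have hR := Fermat.Agent.DS.Rankin.IfaceAdapter.rankin_of_bounded N f N.primeFactors
    (fun p => ε (p : ZMod N)) hf.one (fun p hp hpS n => hf.hecke p hp (hS p hp hpS) n) 4 hbd4
  have hirr : (Deformation.matrixRepresentation ρ).IsIrreducible :=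
    Fermat.Agent.DS.Irred.Main.isIrreducible_of_rankin hCheb ρ hρfl N.primeFactors
      (fun p => qCoeff f p)
      (fun p hp hpS A hA σ hσ => (hfrobAll p hp (hS p hp hpS) A hA σ hσ).1) hbd4 hR
  exact ⟨ρ, hρfl, hirr, fun p hp hpN A hA => ⟨hunramAll p hp hpN A hA, hfrobAll p hp hpN A hA⟩⟩

/-- The statement of piece (A1) for all data. -/
def BoundedAll : Prop :=
  ∀ (N : ℕ) [NeZero N] (ε : DirichletCharacter ℂ N) (f : CuspForm (Gamma1 N) 1),
    IsEigen N ε f → AutStable N →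
    (∀ p : ℕ, p.Prime → ¬ p ∣ N → IsIntegral ℤ (qCoeff f p)) →
    ∃ A : ℕ, BoundedImage N ε f A

/-- The generic half of the contract, from Chebotarev and the uniform bound (A1). -/
theorem genericHalf_of_bounded (hCheb : ChebotarevLowerSym) (hA1 : BoundedAll) :
    GenericHalf := by
  intro hC0 hC1 N _ ε f hf
  have h0 := hC0 N ε f hf
  have h1 := hC1 N (NeZero.ne N)
  have hex := Exists.existsData hf h0 h1
  have hint := NumField.isIntegral_of_modLambdaReps h0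
  obtain ⟨A, hb⟩ := hA1 N ε f hf h1 hint
  have hlift := Lifts90.complexLifts hf A hb hex
  exact conclusion_of hf hCheb (Nat.factorial_pos A) hex hlift Indep7.independence

end Fermat.Agent.DS.Asm.Main
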