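/-
DS programme (S48), ASSEMBLY, FINAL (helper54): the generic half of the Deligne--Serre contract,
unconditionally.

`genericHalf : Iface.GenericHalf`, i.e. `C0 → C1 → Goal`: the statement S48 follows from the two
deliverables of the geometric half,
* `C0` (mod-`λ` representations attached to weight-one eigen data), and
* `C1` (`Aut ℂ`-stability of weight-one cusp forms).

Pieces: (A0) `Asm/Exists` (helper54), (A1) `Asm/Bounded` (helper55), (A2) `Asm/Lifts90` (helper90),
(A3) `Asm/Indep7` (helper7), B7 `Irred/Main` (helper54), B1/B2 `Rankin/*` (helper2) and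
`Conj/*` (helper54), B3 `Cheb/ChebSym20` (helper20 and squad), B4 `GL2/*`, B5 `Lift/*`.
-/
import Mathlib
import Fermat.Agent.DS.Asm.Main
import Fermat.Agent.DS.Asm.Bounded
import Fermat.Agent.DS.Cheb.ChebSym20

set_option autoImplicit false

namespace Fermat.Agent.DS.Asm.Final

open Fermat.Agent.DS.Iface Fermat.Agent.DS.IfaceSym Fermat.Agent.DS.Asm

/-- Piece (A1) for all data. -/
theorem boundedAll : Main.BoundedAll := fun N _ ε f hf hA hint =>
  Bounded.boundedImage N ε f hf hA hint Fermat.Agent.DS.Cheb.ChebSym20.chebotarevLowerSym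

/-- **The generic half of Deligne--Serre**: `C0 → C1 → Goal`. -/
theorem genericHalf : GenericHalf :=
  Main.genericHalf_of_bounded Fermat.Agent.DS.Cheb.ChebSym20.chebotarevLowerSym boundedAll

/-- S48 for one eigen datum from C0 and C1 for that datum's level. -/
theorem goal_of_C0_C1 (hC0 : C0) (hC1 : C1) : Goal := genericHalf hC0 hC1

end Fermat.Agent.DS.Asm.Final
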