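/-
DS programme (S48), ASSEMBLY (helper54): the frozen statement S48 in its literal shape, from the two
deliverables `C0`, `C1` of the geometric half.  The final `Fermat/Agent/S48.lean` is
`exact Fermat.Agent.DS.Asm.S48Shape.s48_of hC0 hC1 N ε f hf₁ hT`.
-/
import Mathlib
import Fermat.Agent.DS.Asm.Final

set_option autoImplicit false

open CongruenceSubgroup
open scoped MatrixGroups

namespace Fermat.Agent.DS.Asm.S48Shape

open Fermat.Agent.DS.Iface

local notation "Γℚ" => (AlgebraicClosure ℚ ≃ₐ[ℚ] AlgebraicClosure ℚ)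

/-- The frozen statement S48, literally, from `C0` and `C1`. -/
theorem s48_of (hC0 : C0) (hC1 : C1)
    (N : ℕ) [NeZero N] (ε : DirichletCharacter ℂ N) (f : CuspForm (Gamma1 N) 1)
    (hf₁ : ModularFormClass.qCoeff f 1 = 1)
    (hT : ∀ p : ℕ, p.Prime → ¬ p ∣ N → ∀ n : ℕ,
        ModularFormClass.qCoeff f (p * n) +
            ε (p : ZMod N) * (if p ∣ n then ModularFormClass.qCoeff f (n / p) else 0) =
          ModularFormClass.qCoeff f p * ModularFormClass.qCoeff f n) :
    ∃ ρ : Γℚ →* GL (Fin 2) ℂ, GaloisFactorsThroughFiniteLevel ρ ∧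
      (Deformation.matrixRepresentation ρ).IsIrreducible ∧
      ∀ p : ℕ, p.Prime → ¬ p ∣ N →
        ∀ A : ValuationSubring (AlgebraicClosure ℚ), A.LiesOverPrime p →
          (∀ σ ∈ A.inertiaSubgroupIn ℚ, ρ σ = 1) ∧
          ∀ σ : Γℚ, A.IsFrobeniusAt σ p →
            ((ρ σ : GL (Fin 2) ℂ) : Matrix (Fin 2) (Fin 2) ℂ).trace = ModularFormClass.qCoeff f p ∧
            ((ρ σ : GL (Fin 2) ℂ) : Matrix (Fin 2) (Fin 2) ℂ).det = ε (p : ZMod N) :=
  Fermat.Agent.DS.Asm.Final.genericHalf hC0 hC1 N ε f ⟨hf₁, hT⟩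

/-- Variant with the deliverables only for the datum at hand: C0 for `(N, ε, f)` and C1 for the
level `N`. -/
theorem s48_of_datum
    (N : ℕ) [NeZero N] (ε : DirichletCharacter ℂ N) (f : CuspForm (Gamma1 N) 1)
    (hf : IsEigen N ε f) (h0 : ModLambdaReps N ε f) (h1 : AutStable N) : Conclusion N ε f := by
  have hex := Fermat.Agent.DS.Asm.Exists.existsData hf h0 h1
  have hint := Fermat.Agent.DS.Asm.NumField.isIntegral_of_modLambdaReps h0
  obtain ⟨A, hb⟩ := Fermat.Agent.DS.Asm.Final.boundedAll N ε f hf h1 hint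
  have hlift := Fermat.Agent.DS.Asm.Lifts90.complexLifts hf A hb hex
  exact Fermat.Agent.DS.Asm.Main.conclusion_of hf
    Fermat.Agent.DS.Cheb.ChebSym20.chebotarevLowerSym (Nat.factorial_pos A) hex hlift
    Fermat.Agent.DS.Asm.Indep7.independence

end Fermat.Agent.DS.Asm.S48Shape
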