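/-
DS programme (S48), ASSEMBLY (helper54): the frozen statement S48 from the INTERNAL contracts of the
geometric half (helper71's `G/Top/Contract`, `G/Top/Patch`, `W1/ConjGlue`):

* `HeckeModLReps 4`, `HeckeModLReps 9` : mod `ℓ` Galois representations attached to characters of
  the weight-two Hecke algebra of `Γ₁(M)` for `4 ∣ M`, resp. `9 ∣ M` (geometry chapters);
* `EigenCharModL 4 2 N ε f`, `EigenCharModL 9 3 N ε f` : the eigensystem of the weight-one form
  occurs modulo `ℓ` in weight two (W1-LIFT);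
* `Wt2AutStable M` : `S₂(Γ₁(M))` is stable under `Aut ℂ` (G-DIM).

`c0_of_geo`, `c1_of_wt2` produce the two deliverables `C0`, `C1` of the cross-half contract and
`s48_of_geo` is the frozen statement S48, literally.
-/
import Mathlib
import Fermat.Agent.DS.Asm.S48Shape
import Fermat.Agent.DS.G.Top.Contract
import Fermat.Agent.DS.G.Top.Patch
import Fermat.Agent.DS.G.Top.PatchGcd
import Fermat.Agent.DS.W1.ConjGlue
import Fermat.Agent.DS.Eis1.Quad

set_option autoImplicit false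
set_option linter.style.haveILetI false

open CongruenceSubgroup
open scoped MatrixGroups

namespace Fermat.Agent.DS.Asm.GeoGlue

open Fermat.Agent.DS.Iface Fermat.Agent.DS.G.Top.Contract Fermat.Agent.DS.G.Top.Patch
open Fermat.Agent.DS.W1.ConjGlue

local notation "Γℚ" => (AlgebraicClosure ℚ ≃ₐ[ℚ] AlgebraicClosure ℚ)

/-- The W1-LIFT deliverable for all eigen data. -/
def EigenCharAll (c' c : ℕ) : Prop :=
  ∀ (N : ℕ) [NeZero N] (ε : DirichletCharacter ℂ N) (f : CuspForm (Gamma1 N) 1),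
    IsEigen N ε f → EigenCharModL c' c N ε f

/-- `C0` from the two geometric contracts at the charts `4 ∣ M` and `9 ∣ M`. -/
theorem c0_of_geo (h4 : HeckeModLReps 4) (h9 : HeckeModLReps 9)
    (hE2 : EigenCharAll 4 2) (hE3 : EigenCharAll 9 3) : C0 :=
  fun N _ ε f hf => modLambdaReps_of_away N ε f
    (modLambdaRepsAway_of 4 2 N ε f h4 (hE2 N ε f hf))
    (modLambdaRepsAway_of 9 3 N ε f h9 (hE3 N ε f hf))

/-- `C1` from weight-two stability (with the rational weight-one Eisenstein series of level `7`). -/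
theorem c1_of_wt2 (hW : ∀ M : ℕ, M ≠ 0 → Wt2AutStable M) : C1 := by
  intro N hN
  haveI : NeZero N := ⟨hN⟩
  haveI : Fact (Nat.Prime 7) := ⟨by norm_num⟩
  have h7 : 7 % 4 = 3 := by norm_num
  refine autStable N 7 (hW (N * 7) (mul_ne_zero hN (by norm_num)))
    (Fermat.Agent.DS.Eis1.Quad.eisQuad (ℓ := 7) h7) ?_ ?_
  · intro h0
    apply Fermat.Agent.DS.Eis1.Quad.eisQuad_ne_zero (ℓ := 7) h7
    exact DFunLike.coe_injective h0
  · intro n
    exact Fermat.Agent.DS.Eis1.Quad.eisQuad_coeff_rat (ℓ := 7) h7 n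

/-- The frozen statement S48 from the internal contracts of the geometric half. -/
theorem s48_of_geo (h4 : HeckeModLReps 4) (h9 : HeckeModLReps 9)
    (hE2 : EigenCharAll 4 2) (hE3 : EigenCharAll 9 3)
    (hW : ∀ M : ℕ, M ≠ 0 → Wt2AutStable M)
    (N : ℕ) [NeZero N] (ε : DirichletCharacter ℂ N) (f : CuspForm (Gamma1 N) 1)
    (hf₁ : ModularFormClass.qCoeff f 1 = 1)
    (hT : ∀ p : ℕ, p.Prime → ¬ p ∣ N → ∀ n : ℕ,
        ModularFormClass.qCoeff f (p * n) +
            ε (p : ZMod N) * (if p ∣ n then ModularFormClass.qCoeff f (n / p) else 0) =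
          ModularFormClass.qCoeff f p * ModularFormClass.qCoeff f n) :
    ∃ ρ : Γℚ →* GL (Fin 2) ℂ, GaloisFactorsThroughFiniteLevel ρ ∧
      (Deformation.matrixRepresentation ρ).IsIrreducible ∧
      ∀ p : ℕ, p.Prime → ¬ p ∣ N →
        ∀ A : ValuationSubring (AlgebraicClosure ℚ), A.LiesOverPrime p →
          (∀ σ ∈ A.inertiaSubgroupIn ℚ, ρ σ = 1) ∧
          ∀ σ : Γℚ, A.IsFrobeniusAt σ p →
            ((ρ σ : GL (Fin 2) ℂ) : Matrix (Fin 2) (Fin 2) ℂ).trace = ModularFormClass.qCoeff f p ∧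
            ((ρ σ : GL (Fin 2) ℂ) : Matrix (Fin 2) (Fin 2) ℂ).det = ε (p : ZMod N) :=
  Fermat.Agent.DS.Asm.S48Shape.s48_of (c0_of_geo h4 h9 hE2 hE3) (c1_of_wt2 hW) N ε f hf₁ hT

/-- `C0` from the two geometric contracts, W1-LIFT in the shape `EigenCharModL c c` (plan v2:
levels `M = c N ℓ²`, `c = 4, 9`). -/
theorem c0_of_geo' (h4 : HeckeModLReps 4) (h9 : HeckeModLReps 9)
    (hE4 : EigenCharAll 4 4) (hE9 : EigenCharAll 9 9) : C0 := by
  intro N _ ε f hf
  have h := Fermat.Agent.DS.G.Top.PatchGcd.away_gcd 4 9 (by norm_num) (by norm_num) N ε f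
    (modLambdaRepsAway_of 4 4 N ε f h4 (hE4 N ε f hf))
    (modLambdaRepsAway_of 9 9 N ε f h9 (hE9 N ε f hf))
  have hg : Nat.gcd 4 9 = 1 := by norm_num
  rw [hg] at h
  exact Fermat.Agent.DS.G.Top.PatchGcd.modLambdaReps_of_away_one N ε f h

/-- The frozen statement S48 from the internal contracts of the geometric half, plan v2 shape. -/
theorem s48_of_geo' (h4 : HeckeModLReps 4) (h9 : HeckeModLReps 9)
    (hE4 : EigenCharAll 4 4) (hE9 : EigenCharAll 9 9)
    (hW : ∀ M : ℕ, M ≠ 0 → Wt2AutStable M)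
    (N : ℕ) [NeZero N] (ε : DirichletCharacter ℂ N) (f : CuspForm (Gamma1 N) 1)
    (hf₁ : ModularFormClass.qCoeff f 1 = 1)
    (hT : ∀ p : ℕ, p.Prime → ¬ p ∣ N → ∀ n : ℕ,
        ModularFormClass.qCoeff f (p * n) +
            ε (p : ZMod N) * (if p ∣ n then ModularFormClass.qCoeff f (n / p) else 0) =
          ModularFormClass.qCoeff f p * ModularFormClass.qCoeff f n) :
    ∃ ρ : Γℚ →* GL (Fin 2) ℂ, GaloisFactorsThroughFiniteLevel ρ ∧
      (Deformation.matrixRepresentation ρ).IsIrreducible ∧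
      ∀ p : ℕ, p.Prime → ¬ p ∣ N →
        ∀ A : ValuationSubring (AlgebraicClosure ℚ), A.LiesOverPrime p →
          (∀ σ ∈ A.inertiaSubgroupIn ℚ, ρ σ = 1) ∧
          ∀ σ : Γℚ, A.IsFrobeniusAt σ p →
            ((ρ σ : GL (Fin 2) ℂ) : Matrix (Fin 2) (Fin 2) ℂ).trace = ModularFormClass.qCoeff f p ∧
            ((ρ σ : GL (Fin 2) ℂ) : Matrix (Fin 2) (Fin 2) ℂ).det = ε (p : ZMod N) :=
  Fermat.Agent.DS.Asm.S48Shape.s48_of (c0_of_geo' h4 h9 hE4 hE9) (c1_of_wt2 hW) N ε f hf₁ hT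

end Fermat.Agent.DS.Asm.GeoGlue
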