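/-
DS programme (S48), final wiring (helper71): the frozen statement S48 from

* `Nonempty (GeoInputsGen M ℓ)` for all `M` divisible by `4`, resp. by `9`, and all odd primes `ℓ`
  (`G/Top/Inputs.lean`: the geometry chapters), and
* `Wt2AutStable M` (G-DIM).

Everything else is landed: `G/Top/AssembleGen.heckeModLReps_of_geoInputsGen`, W1-LIFT
(`W1/Final.eigenCharModL`, helper7) with `Per1/EigenGamma1.finite_T2` (helper91), and
`Asm/GeoGlue.s48_of_geo'` (helper54).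
-/
import Mathlib
import Fermat.Agent.DS.Asm.GeoGlue
import Fermat.Agent.DS.W1.Final
import Fermat.Agent.DS.Per1.EigenGamma1
import Fermat.Agent.DS.G.Top.AssembleGen
import Fermat.Agent.DS.G.Top.Assemble2

set_option autoImplicit false

open CongruenceSubgroup
open scoped MatrixGroups

namespace Fermat.Agent.DS.Asm.GeoFinal

open Fermat.Agent.DS.Iface Fermat.Agent.DS.G.Top.Contract Fermat.Agent.DS.G.Top.InputsGen
open Fermat.Agent.DS.W1.ConjGlue Fermat.Agent.DS.Asm.GeoGlue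

local notation "Γℚ" => (AlgebraicClosure ℚ ≃ₐ[ℚ] AlgebraicClosure ℚ)

/-- W1-LIFT, unconditional. -/
theorem eigenCharAll (c : ℕ) [NeZero c] : EigenCharAll c c :=
  fun N _ ε f hf =>
    Fermat.Agent.DS.W1.Final.eigenCharModL
      (fun M _ => Fermat.Agent.DS.Per1.EigenGamma1.finite_T2 M) c N ε f hf

/-- `C0` from the geometric inputs. -/
theorem c0_of_geoInputs
    (h4 : ∀ (M : ℕ) [NeZero M], 4 ∣ M → ∀ (ℓ : ℕ) [Fact ℓ.Prime], ℓ ≠ 2 →
      Nonempty (GeoInputsGen M ℓ))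
    (h9 : ∀ (M : ℕ) [NeZero M], 9 ∣ M → ∀ (ℓ : ℕ) [Fact ℓ.Prime], ℓ ≠ 2 →
      Nonempty (GeoInputsGen M ℓ)) : C0 :=
  c0_of_geo' (Fermat.Agent.DS.G.Top.AssembleGen.heckeModLReps_of_geoInputsGen 4 h4)
    (Fermat.Agent.DS.G.Top.AssembleGen.heckeModLReps_of_geoInputsGen 9 h9)
    (eigenCharAll 4) (eigenCharAll 9)

/-- **The frozen statement S48 from the geometric inputs.** -/
theorem s48_of_geoInputs
    (h4 : ∀ (M : ℕ) [NeZero M], 4 ∣ M → ∀ (ℓ : ℕ) [Fact ℓ.Prime], ℓ ≠ 2 →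
      Nonempty (GeoInputsGen M ℓ))
    (h9 : ∀ (M : ℕ) [NeZero M], 9 ∣ M → ∀ (ℓ : ℕ) [Fact ℓ.Prime], ℓ ≠ 2 →
      Nonempty (GeoInputsGen M ℓ))
    (hW : ∀ M : ℕ, M ≠ 0 → Wt2AutStable M)
    (N : ℕ) [NeZero N] (ε : DirichletCharacter ℂ N) (f : CuspForm (Gamma1 N) 1)
    (hf₁ : ModularFormClass.qCoeff f 1 = 1)
    (hT : ∀ p : ℕ, p.Prime → ¬ p ∣ N → ∀ n : ℕ,
        ModularFormClass.qCoeff f (p * n) +
            ε (p : ZMod N) * (if p ∣ n then ModularFormClass.qCoeff f (n / p) else 0) =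
          ModularFormClass.qCoeff f p * ModularFormClass.qCoeff f n) :
    ∃ ρ : Γℚ →* GL (Fin 2) ℂ, GaloisFactorsThroughFiniteLevel ρ ∧
      (Deformation.matrixRepresentation ρ).IsIrreducible ∧
      ∀ p : ℕ, p.Prime → ¬ p ∣ N →
        ∀ A : ValuationSubring (AlgebraicClosure ℚ), A.LiesOverPrime p →
          (∀ σ ∈ A.inertiaSubgroupIn ℚ, ρ σ = 1) ∧
          ∀ σ : Γℚ, A.IsFrobeniusAt σ p →
            ((ρ σ : GL (Fin 2) ℂ) : Matrix (Fin 2) (Fin 2) ℂ).trace = ModularFormClass.qCoeff f p ∧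
            ((ρ σ : GL (Fin 2) ℂ) : Matrix (Fin 2) (Fin 2) ℂ).det = ε (p : ZMod N) :=
  s48_of_geo' (Fermat.Agent.DS.G.Top.AssembleGen.heckeModLReps_of_geoInputsGen 4 h4)
    (Fermat.Agent.DS.G.Top.AssembleGen.heckeModLReps_of_geoInputsGen 9 h9)
    (eigenCharAll 4) (eigenCharAll 9) hW N ε f hf₁ hT

/-- **The frozen statement S48 from the geometric inputs**, in helper91's form `GeoInputs2`
(`G/Top/Inputs2.lean`; constructor `Per1/LatticeSide2.geoInputs2` with the lattice side already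
discharged). -/
theorem s48_of_geoInputs2
    (h4 : ∀ (M : ℕ) [NeZero M], 4 ∣ M → ∀ (ℓ : ℕ) [Fact ℓ.Prime], ℓ ≠ 2 →
      Nonempty (Fermat.Agent.DS.G.Top.Inputs2.GeoInputs2 M ℓ))
    (h9 : ∀ (M : ℕ) [NeZero M], 9 ∣ M → ∀ (ℓ : ℕ) [Fact ℓ.Prime], ℓ ≠ 2 →
      Nonempty (Fermat.Agent.DS.G.Top.Inputs2.GeoInputs2 M ℓ))
    (hW : ∀ M : ℕ, M ≠ 0 → Wt2AutStable M)
    (N : ℕ) [NeZero N] (ε : DirichletCharacter ℂ N) (f : CuspForm (Gamma1 N) 1)
    (hf₁ : ModularFormClass.qCoeff f 1 = 1)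
    (hT : ∀ p : ℕ, p.Prime → ¬ p ∣ N → ∀ n : ℕ,
        ModularFormClass.qCoeff f (p * n) +
            ε (p : ZMod N) * (if p ∣ n then ModularFormClass.qCoeff f (n / p) else 0) =
          ModularFormClass.qCoeff f p * ModularFormClass.qCoeff f n) :
    ∃ ρ : Γℚ →* GL (Fin 2) ℂ, GaloisFactorsThroughFiniteLevel ρ ∧
      (Deformation.matrixRepresentation ρ).IsIrreducible ∧
      ∀ p : ℕ, p.Prime → ¬ p ∣ N →
        ∀ A : ValuationSubring (AlgebraicClosure ℚ), A.LiesOverPrime p →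
          (∀ σ ∈ A.inertiaSubgroupIn ℚ, ρ σ = 1) ∧
          ∀ σ : Γℚ, A.IsFrobeniusAt σ p →
            ((ρ σ : GL (Fin 2) ℂ) : Matrix (Fin 2) (Fin 2) ℂ).trace = ModularFormClass.qCoeff f p ∧
            ((ρ σ : GL (Fin 2) ℂ) : Matrix (Fin 2) (Fin 2) ℂ).det = ε (p : ZMod N) :=
  s48_of_geo' (Fermat.Agent.DS.G.Top.Assemble2.heckeModLReps_of_geoInputs2 4 h4)
    (Fermat.Agent.DS.G.Top.Assemble2.heckeModLReps_of_geoInputs2 9 h9)
    (eigenCharAll 4) (eigenCharAll 9) hW N ε f hf₁ hT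

end Fermat.Agent.DS.Asm.GeoFinal
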