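/-
DS programme (S48), final wiring, part 2 (helper2): the frozen statement S48 from the geometric
inputs `GeoInputs2 M ℓ` (resp. `GeoInputsGen M ℓ`) ALONE: the hypothesis `hW` of
`Asm/GeoFinal.s48_of_geoInputs(2)` is discharged by `G/Dim/Top.wt2AutStable_all` (chapter G-DIM).
-/
import Mathlib
import Fermat.Agent.DS.Asm.GeoFinal
import Fermat.Agent.DS.G.Dim.Top

set_option autoImplicit false

open CongruenceSubgroup
open scoped MatrixGroups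

namespace Fermat.Agent.DS.Asm.GeoFinal2

open Fermat.Agent.DS.G.Top.InputsGen

local notation "Γℚ" => (AlgebraicClosure ℚ ≃ₐ[ℚ] AlgebraicClosure ℚ)

/-- **The frozen statement S48 from `GeoInputs2` alone.** -/
theorem s48_of_geoInputs2
    (h4 : ∀ (M : ℕ) [NeZero M], 4 ∣ M → ∀ (ℓ : ℕ) [Fact ℓ.Prime], ℓ ≠ 2 →
      Nonempty (Fermat.Agent.DS.G.Top.Inputs2.GeoInputs2 M ℓ))
    (h9 : ∀ (M : ℕ) [NeZero M], 9 ∣ M → ∀ (ℓ : ℕ) [Fact ℓ.Prime], ℓ ≠ 2 →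
      Nonempty (Fermat.Agent.DS.G.Top.Inputs2.GeoInputs2 M ℓ))
    (N : ℕ) [NeZero N] (ε : DirichletCharacter ℂ N) (f : CuspForm (Gamma1 N) 1)
    (hf₁ : ModularFormClass.qCoeff f 1 = 1)
    (hT : ∀ p : ℕ, p.Prime → ¬ p ∣ N → ∀ n : ℕ,
        ModularFormClass.qCoeff f (p * n) +
            ε (p : ZMod N) * (if p ∣ n then ModularFormClass.qCoeff f (n / p) else 0) =
          ModularFormClass.qCoeff f p * ModularFormClass.qCoeff f n) :
    ∃ ρ : Γℚ →* GL (Fin 2) ℂ, GaloisFactorsThroughFiniteLevel ρ ∧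
      (Deformation.matrixRepresentation ρ).IsIrreducible ∧
      ∀ p : ℕ, p.Prime → ¬ p ∣ N →
        ∀ A : ValuationSubring (AlgebraicClosure ℚ), A.LiesOverPrime p →
          (∀ σ ∈ A.inertiaSubgroupIn ℚ, ρ σ = 1) ∧
          ∀ σ : Γℚ, A.IsFrobeniusAt σ p →
            ((ρ σ : GL (Fin 2) ℂ) : Matrix (Fin 2) (Fin 2) ℂ).trace = ModularFormClass.qCoeff f p ∧
            ((ρ σ : GL (Fin 2) ℂ) : Matrix (Fin 2) (Fin 2) ℂ).det = ε (p : ZMod N) :=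
  Fermat.Agent.DS.Asm.GeoFinal.s48_of_geoInputs2 h4 h9
    Fermat.Agent.DS.G.Dim.Top.wt2AutStable_all N ε f hf₁ hT

/-- **The frozen statement S48 from `GeoInputsGen` alone.** -/
theorem s48_of_geoInputsGen
    (h4 : ∀ (M : ℕ) [NeZero M], 4 ∣ M → ∀ (ℓ : ℕ) [Fact ℓ.Prime], ℓ ≠ 2 →
      Nonempty (GeoInputsGen M ℓ))
    (h9 : ∀ (M : ℕ) [NeZero M], 9 ∣ M → ∀ (ℓ : ℕ) [Fact ℓ.Prime], ℓ ≠ 2 →
      Nonempty (GeoInputsGen M ℓ))
    (N : ℕ) [NeZero N] (ε : DirichletCharacter ℂ N) (f : CuspForm (Gamma1 N) 1)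
    (hf₁ : ModularFormClass.qCoeff f 1 = 1)
    (hT : ∀ p : ℕ, p.Prime → ¬ p ∣ N → ∀ n : ℕ,
        ModularFormClass.qCoeff f (p * n) +
            ε (p : ZMod N) * (if p ∣ n then ModularFormClass.qCoeff f (n / p) else 0) =
          ModularFormClass.qCoeff f p * ModularFormClass.qCoeff f n) :
    ∃ ρ : Γℚ →* GL (Fin 2) ℂ, GaloisFactorsThroughFiniteLevel ρ ∧
      (Deformation.matrixRepresentation ρ).IsIrreducible ∧
      ∀ p : ℕ, p.Prime → ¬ p ∣ N →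
        ∀ A : ValuationSubring (AlgebraicClosure ℚ), A.LiesOverPrime p →
          (∀ σ ∈ A.inertiaSubgroupIn ℚ, ρ σ = 1) ∧
          ∀ σ : Γℚ, A.IsFrobeniusAt σ p →
            ((ρ σ : GL (Fin 2) ℂ) : Matrix (Fin 2) (Fin 2) ℂ).trace = ModularFormClass.qCoeff f p ∧
            ((ρ σ : GL (Fin 2) ℂ) : Matrix (Fin 2) (Fin 2) ℂ).det = ε (p : ZMod N) :=
  Fermat.Agent.DS.Asm.GeoFinal.s48_of_geoInputs h4 h9
    Fermat.Agent.DS.G.Dim.Top.wt2AutStable_all N ε f hf₁ hT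

end Fermat.Agent.DS.Asm.GeoFinal2
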