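/-
DS programme (S48), ASSEMBLY (helper7): `Asm/GeoGlue.s48_of_geo` with the W1-LIFT hypotheses
discharged (`W1/Uncond7`), and with the weight-two stability hypothesis only at levels divisible
by `4` (auxiliary level `28`: the rational weight-one Eisenstein series of level `7`, restricted to
`Γ₁(28)`).

* `eigenCharAll_four`, `eigenCharAll_nine` : the W1-LIFT deliverables, unconditional;
* `c0_of_geo`   : `C0` from `HeckeModLReps 4`, `HeckeModLReps 9` only;
* `c1_of_wt2_four` : `C1` from `Wt2AutStable M` for `4 ∣ M` only;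
* `s48_of_geo`, `s48_of_geo_four` : the frozen statement S48 from `HeckeModLReps 4`,
  `HeckeModLReps 9` and `Wt2AutStable` (all `M ≠ 0`, resp. all `M ≠ 0` with `4 ∣ M`).
-/
import Mathlib
import Fermat.Agent.DS.Asm.GeoGlue
import Fermat.Agent.DS.W1.Uncond7
import Fermat.Agent.DS.W1.Forms

set_option autoImplicit false
set_option linter.style.haveILetI false

open CongruenceSubgroup
open scoped MatrixGroups

namespace Fermat.Agent.DS.Asm.GeoGlue7

open Fermat.Agent.DS.Iface Fermat.Agent.DS.G.Top.Contract Fermat.Agent.DS.G.Top.Patch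
open Fermat.Agent.DS.W1.ConjGlue Fermat.Agent.DS.Asm.GeoGlue

local notation "Γℚ" => (AlgebraicClosure ℚ ≃ₐ[ℚ] AlgebraicClosure ℚ)

/-- W1-LIFT at the chart `4 ∣ M`, unconditional. -/
theorem eigenCharAll_four : EigenCharAll 4 2 :=
  fun N _ ε f hf => Fermat.Agent.DS.W1.Uncond7.eigenCharModL_four N ε f hf

/-- W1-LIFT at the chart `9 ∣ M`, unconditional. -/
theorem eigenCharAll_nine : EigenCharAll 9 3 :=
  fun N _ ε f hf => Fermat.Agent.DS.W1.Uncond7.eigenCharModL_nine N ε f hf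

/-- `C0` from the two geometric contracts only. -/
theorem c0_of_geo (h4 : HeckeModLReps 4) (h9 : HeckeModLReps 9) : C0 :=
  Fermat.Agent.DS.Asm.GeoGlue.c0_of_geo h4 h9 eigenCharAll_four eigenCharAll_nine

/-- The rational weight-one Eisenstein series of level `7`, as a form on `Γ₁(28)`. -/
noncomputable def eis28 : ModularForm ((Gamma1 28).map (Matrix.SpecialLinearGroup.mapGL ℝ)) 1 :=
  haveI : Fact (Nat.Prime 7) := ⟨by norm_num⟩
  Fermat.Agent.DS.W1.Forms.restrictMod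
    (Fermat.Agent.DS.W1.Forms.map_Gamma1_le_of_dvd (M := 28) (N := 7) (by norm_num))
    (Fermat.Agent.DS.Eis1.Quad.eisQuad (ℓ := 7) (by norm_num))

theorem coe_eis28 :
    (eis28 : UpperHalfPlane → ℂ) =
      (haveI : Fact (Nat.Prime 7) := ⟨by norm_num⟩
       (Fermat.Agent.DS.Eis1.Quad.eisQuad (ℓ := 7) (by norm_num) : UpperHalfPlane → ℂ)) := rfl

/-- `C1` from weight-two stability at the levels divisible by `4` (auxiliary level `28`). -/
theorem c1_of_wt2_four (hW : ∀ M : ℕ, M ≠ 0 → 4 ∣ M → Wt2AutStable M) : C1 := by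
  intro N hN
  haveI : NeZero N := ⟨hN⟩
  haveI : Fact (Nat.Prime 7) := ⟨by norm_num⟩
  have h7 : 7 % 4 = 3 := by norm_num
  refine autStable N 28 (hW (N * 28) (mul_ne_zero hN (by norm_num))
    (Dvd.dvd.mul_left (by norm_num) N)) eis28 ?_ ?_
  · intro h0
    apply Fermat.Agent.DS.Eis1.Quad.eisQuad_ne_zero (ℓ := 7) h7
    apply DFunLike.coe_injective
    rw [coe_eis28] at h0
    exact h0
  · intro n
    exact Fermat.Agent.DS.Eis1.Quad.eisQuad_coeff_rat (ℓ := 7) h7 n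

/-- The frozen statement S48 from `HeckeModLReps 4`, `HeckeModLReps 9` and `Wt2AutStable M` for the
levels `M` divisible by `4`. -/
theorem s48_of_geo_four (h4 : HeckeModLReps 4) (h9 : HeckeModLReps 9)
    (hW : ∀ M : ℕ, M ≠ 0 → 4 ∣ M → Wt2AutStable M)
    (N : ℕ) [NeZero N] (ε : DirichletCharacter ℂ N) (f : CuspForm (Gamma1 N) 1)
    (hf₁ : ModularFormClass.qCoeff f 1 = 1)
    (hT : ∀ p : ℕ, p.Prime → ¬ p ∣ N → ∀ n : ℕ,
        ModularFormClass.qCoeff f (p * n) +
            ε (p : ZMod N) * (if p ∣ n then ModularFormClass.qCoeff f (n / p) else 0) =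
          ModularFormClass.qCoeff f p * ModularFormClass.qCoeff f n) :
    ∃ ρ : Γℚ →* GL (Fin 2) ℂ, GaloisFactorsThroughFiniteLevel ρ ∧
      (Deformation.matrixRepresentation ρ).IsIrreducible ∧
      ∀ p : ℕ, p.Prime → ¬ p ∣ N →
        ∀ A : ValuationSubring (AlgebraicClosure ℚ), A.LiesOverPrime p →
          (∀ σ ∈ A.inertiaSubgroupIn ℚ, ρ σ = 1) ∧
          ∀ σ : Γℚ, A.IsFrobeniusAt σ p →
            ((ρ σ : GL (Fin 2) ℂ) : Matrix (Fin 2) (Fin 2) ℂ).trace = ModularFormClass.qCoeff f p ∧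
            ((ρ σ : GL (Fin 2) ℂ) : Matrix (Fin 2) (Fin 2) ℂ).det = ε (p : ZMod N) :=
  Fermat.Agent.DS.Asm.S48Shape.s48_of (c0_of_geo h4 h9) (c1_of_wt2_four hW) N ε f hf₁ hT

/-- The frozen statement S48 from `HeckeModLReps 4`, `HeckeModLReps 9` and `Wt2AutStable`. -/
theorem s48_of_geo (h4 : HeckeModLReps 4) (h9 : HeckeModLReps 9)
    (hW : ∀ M : ℕ, M ≠ 0 → Wt2AutStable M)
    (N : ℕ) [NeZero N] (ε : DirichletCharacter ℂ N) (f : CuspForm (Gamma1 N) 1)
    (hf₁ : ModularFormClass.qCoeff f 1 = 1)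
    (hT : ∀ p : ℕ, p.Prime → ¬ p ∣ N → ∀ n : ℕ,
        ModularFormClass.qCoeff f (p * n) +
            ε (p : ZMod N) * (if p ∣ n then ModularFormClass.qCoeff f (n / p) else 0) =
          ModularFormClass.qCoeff f p * ModularFormClass.qCoeff f n) :
    ∃ ρ : Γℚ →* GL (Fin 2) ℂ, GaloisFactorsThroughFiniteLevel ρ ∧
      (Deformation.matrixRepresentation ρ).IsIrreducible ∧
      ∀ p : ℕ, p.Prime → ¬ p ∣ N →
        ∀ A : ValuationSubring (AlgebraicClosure ℚ), A.LiesOverPrime p →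
          (∀ σ ∈ A.inertiaSubgroupIn ℚ, ρ σ = 1) ∧
          ∀ σ : Γℚ, A.IsFrobeniusAt σ p →
            ((ρ σ : GL (Fin 2) ℂ) : Matrix (Fin 2) (Fin 2) ℂ).trace = ModularFormClass.qCoeff f p ∧
            ((ρ σ : GL (Fin 2) ℂ) : Matrix (Fin 2) (Fin 2) ℂ).det = ε (p : ZMod N) :=
  s48_of_geo_four h4 h9 (fun M hM _ => hW M hM) N ε f hf₁ hT

end Fermat.Agent.DS.Asm.GeoGlue7
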